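import Fermat.Agent.HopfOrder.Equivariant

/-!
The criterion for the existence of a Hopf order: a finite Galois module `M` with a pairing
`e : M × M' → Ωˣ` whose values `e x` are integral combinations of equivariant integral functions
on `M'`.
-/

set_option autoImplicit false
set_option linter.unusedSectionVars false

namespace Fermat.Agent.HopfOrder

/-- The submodule of functions on `M × M` spanned by the products of functions in `H`. -/
def tensorSpan {R Ω M : Type} [CommRing R] [Field Ω] [Algebra R Ω]
    (H : Subalgebra R (M → Ω)) : Submodule R (M × M → Ω) :=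
  Submodule.span R {φ : M × M → Ω | ∃ a ∈ H, ∃ b ∈ H, φ = fun z => a z.1 * b z.2}

theorem mul_mem_tensorSpan {R Ω M : Type} [CommRing R] [Field Ω] [Algebra R Ω]
    (H : Subalgebra R (M → Ω)) {a b : M × M → Ω} (ha : a ∈ tensorSpan H) (hb : b ∈ tensorSpan H) :
    a * b ∈ tensorSpan H := by
  have h1 := Submodule.mul_mem_mul ha hb
  unfold tensorSpan at h1
  rw [Submodule.span_mul_span] at h1
  refine Submodule.span_mono ?_ h1
  rintro c ⟨u, ⟨a, ha, b, hb, rfl⟩, v, ⟨a', ha', b', hb', rfl⟩, rfl⟩
  refine ⟨a * a', H.mul_mem ha ha', b * b', H.mul_mem hb hb', ?_⟩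
  funext z
  simp only [Pi.mul_apply]
  ring

theorem one_mem_tensorSpan {R Ω M : Type} [CommRing R] [Field Ω] [Algebra R Ω]
    (H : Subalgebra R (M → Ω)) : (1 : M × M → Ω) ∈ tensorSpan H :=
  Submodule.subset_span ⟨1, H.one_mem, 1, H.one_mem, by funext z; simp⟩

/-- Comultiplication can be checked on generators. -/
theorem comul_mem_of_adjoin {R Ω M : Type} [CommRing R] [Field Ω] [Algebra R Ω] [AddCommGroup M]
    (s : Set (M → Ω))
    (hs : ∀ h ∈ s, (fun z : M × M => h (z.1 + z.2)) ∈ tensorSpan (Algebra.adjoin R s))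
    (h : M → Ω) (hh : h ∈ Algebra.adjoin R s) :
    (fun z : M × M => h (z.1 + z.2)) ∈ tensorSpan (Algebra.adjoin R s) := by
  induction hh using Algebra.adjoin_induction with
  | mem x hx => exact hs x hx
  | algebraMap r =>
    have h1 : (fun z : M × M => (algebraMap R (M → Ω) r) (z.1 + z.2)) = r • (1 : M × M → Ω) := by
      funext z
      simp [Algebra.smul_def]
    rw [h1]
    exact Submodule.smul_mem _ _ (one_mem_tensorSpan _)
  | add x y _ _ hx hy => exact Submodule.add_mem _ hx hy
  | mul x y _ _ hx hy => exact mul_mem_tensorSpan _ hx hy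

section Criterion

variable {R K Ω : Type} [CommRing R] [IsDomain R] [IsPrincipalIdealRing R] [Field K] [Field Ω]
  [Algebra R K] [IsFractionRing R K] [Algebra K Ω] [Algebra R Ω] [IsScalarTower R K Ω]
  [IsGalois K Ω]

theorem isIntegral_pi {X : Type} [Finite X] {f : X → Ω} (hf : ∀ x, IsIntegral R (f x)) :
    IsIntegral R f := by
  classical
  have := Fintype.ofFinite X
  choose p hp hp' using hf
  refine ⟨∏ x, p x, Polynomial.monic_prod_of_monic _ _ fun x _ => hp x, ?_⟩
  funext x
  have h1 : (Polynomial.eval₂ (algebraMap R (X → Ω)) f (∏ x, p x)) x =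
      Polynomial.eval₂ (algebraMap R Ω) (f x) (∏ x, p x) := by
    have h2 := Polynomial.hom_eval₂ (∏ x, p x) (algebraMap R (X → Ω)) (Pi.evalRingHom (fun _ => Ω) x) f
    exact h2
  rw [h1, Polynomial.eval₂_finsetProd]
  exact Finset.prod_eq_zero (Finset.mem_univ x) (hp' x)

theorem criterion {M M' : Type} [AddCommGroup M] [AddCommGroup M'] [Finite M] [Finite M']
    [DistribMulAction (Ω ≃ₐ[K] Ω) M] [DistribMulAction (Ω ≃ₐ[K] Ω) M']
    (hM' : IsContAction K Ω M') (e : M → M' → Ω)
    (he_left : ∀ x x' y, e (x + x') y = e x y * e x' y)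
    (he_right : ∀ x y y', e x (y + y') = e x y * e x y')
    (he_equiv : ∀ (σ : Ω ≃ₐ[K] Ω) x y, e (σ • x) (σ • y) = σ (e x y))
    (he_ne : ∀ x y, e x y ≠ 0)
    (hinj : ∀ x, (∀ y, e x y = 1) → x = 0)
    (hint : ∀ x, e x ∈
      Submodule.span (integralClosure R Ω) (equivInt R K Ω M' : Set (M' → Ω))) :
    ∃ H : Subalgebra R (M → Ω), IsHopfOrder H ∧
      ∀ h ∈ H, ∀ (σ : Ω ≃ₐ[K] Ω) (x : M), h (σ • x) = σ (h x) := by
  classical
  have hR : Function.Injective (algebraMap R Ω) := by
    rw [IsScalarTower.algebraMap_eq R K Ω]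
    exact (algebraMap K Ω).injective.comp (IsFractionRing.injective R K)
  obtain ⟨n, c, c', hc⟩ := (equivInt_isOrder (R := R) hM').exists_basis hR
  let φ : Fin n → M → Ω := fun i x => c'.repr (e x) i
  have hφ : ∀ x y, e x y = ∑ i, φ i x * (c i : M' → Ω) y := by
    intro x y
    have h1 := congrFun (c'.sum_repr (e x)) y
    rw [← h1]
    simp [φ, hc]
  have huniq : ∀ (q r : Fin n → Ω), (∀ y, ∑ i, q i * (c i : M' → Ω) y =
      ∑ i, r i * (c i : M' → Ω) y) → q = r := by
    intro q r h
    have h1 : ∑ i, (q i - r i) • c' i = 0 := by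
      funext y
      have h2 := h y
      rw [← sub_eq_zero, ← Finset.sum_sub_distrib] at h2
      simpa [hc, sub_mul] using h2
    funext i
    exact sub_eq_zero.1 (Fintype.linearIndependent_iff.1 c'.linearIndependent _ h1 i)
  -- expansion of elements of the order
  have hexp : ∀ (d : equivInt R K Ω M') (y : M'), (d : M' → Ω) y =
      ∑ i, algebraMap R Ω (c.repr d i) * (c i : M' → Ω) y := by
    intro d y
    conv_lhs => rw [← c.sum_repr d]
    rw [AddSubmonoidClass.coe_finsetSum, Finset.sum_apply]
    refine Finset.sum_congr rfl fun i _ => ?_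
    rw [← Algebra.smul_def]
    rfl
  have hcoord : ∀ (d : equivInt R K Ω M') (i : Fin n),
      c'.repr (d : M' → Ω) i = algebraMap R Ω (c.repr d i) := by
    intro d i
    refine congrFun (huniq (fun i => c'.repr (d : M' → Ω) i)
      (fun i => algebraMap R Ω (c.repr d i)) fun y => ?_) i
    rw [← hexp]
    have h1 := congrFun (c'.sum_repr (d : M' → Ω)) y
    conv_rhs => rw [← h1]
    simp [hc]
  have hφint : ∀ i x, IsIntegral R (φ i x) := by
    intro i x
    have key : ∀ z ∈ Submodule.span (integralClosure R Ω) (equivInt R K Ω M' : Set (M' → Ω)),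
        ∀ i, IsIntegral R (c'.repr z i) := by
      intro z hz
      induction hz using Submodule.span_induction with
      | mem z hz =>
        intro i
        have h1 := hcoord ⟨z, hz⟩ i
        simp only at h1
        rw [h1]
        exact isIntegral_algebraMap
      | zero => intro i; simp [isIntegral_zero]
      | add z w _ _ hz hw =>
        intro i
        rw [map_add, Finsupp.add_apply]
        exact (hz i).add (hw i)
      | smul a z _ hz =>
        intro i
        have h1 : a • z = (a : Ω) • z := rfl
        rw [h1, map_smul, Finsupp.smul_apply, smul_eq_mul]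
        exact a.2.mul (hz i)
    exact key _ (hint x) i
  have hφequiv : ∀ (i : Fin n) (σ : Ω ≃ₐ[K] Ω) (x : M), φ i (σ • x) = σ (φ i x) := by
    intro i σ x
    refine congrFun (huniq (fun i => φ i (σ • x)) (fun i => σ (φ i x)) fun y => ?_) i
    rw [← hφ]
    have h1 := he_equiv σ x (σ⁻¹ • y)
    rw [smul_inv_smul] at h1
    rw [h1, hφ, map_sum]
    refine Finset.sum_congr rfl fun i _ => ?_
    rw [map_mul, ← (c i).2.2, smul_inv_smul]
  let s : Set (M → Ω) := Set.range φ
  have hmem : ∀ i, φ i ∈ Algebra.adjoin R s := fun i => Algebra.subset_adjoin ⟨i, rfl⟩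
  have hequiv : ∀ h ∈ Algebra.adjoin R s, ∀ (σ : Ω ≃ₐ[K] Ω) (x : M), h (σ • x) = σ (h x) := by
    intro h hh
    induction hh using Algebra.adjoin_induction with
    | mem h hh =>
      obtain ⟨i, rfl⟩ := hh
      exact hφequiv i
    | algebraMap r =>
      intro σ x
      rw [Pi.algebraMap_apply, Pi.algebraMap_apply, IsScalarTower.algebraMap_apply R K Ω,
        AlgEquiv.commutes]
    | add a b _ _ ha hb =>
      intro σ x
      rw [Pi.add_apply, Pi.add_apply, ha, hb, map_add]
    | mul a b _ _ ha hb =>
      intro σ x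
      rw [Pi.mul_apply, Pi.mul_apply, ha, hb, map_mul]
  refine ⟨Algebra.adjoin R s, ?_, hequiv⟩
  refine { finite := ?_, indep := ?_, separates := ?_, comul := ?_, counit := ?_, antipode := ?_ }
  · have h1 := fg_adjoin_of_finite (R := R) (Set.finite_range φ) (by
      rintro _ ⟨i, rfl⟩
      exact isIntegral_pi (hφint i))
    exact Module.Finite.iff_fg.2 h1
  · intro m v hv
    exact indep_of_equivariant (K := K) m _ hequiv v hv
  · intro x y hxy
    by_contra hcon
    push Not at hcon
    refine hxy (sub_eq_zero.1 (hinj _ fun z => ?_))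
    have h1 : e x z = e y z := by
      rw [hφ, hφ]
      exact Finset.sum_congr rfl fun i _ => by rw [hcon _ (hmem i)]
    have h2 := he_left (x - y) y z
    rw [sub_add_cancel, h1] at h2
    exact (mul_right_cancel₀ (he_ne y z) (by rw [one_mul]; exact h2)).symm
  · refine comul_mem_of_adjoin s ?_
    rintro _ ⟨k, rfl⟩
    have h1 : (fun z : M × M => φ k (z.1 + z.2)) =
        ∑ i, ∑ j, c.repr (c i * c j) k • (fun z : M × M => φ i z.1 * φ j z.2) := by
      funext z
      have h2 := congrFun (huniq (fun k => φ k (z.1 + z.2))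
        (fun k => ∑ i, ∑ j, algebraMap R Ω (c.repr (c i * c j) k) * (φ i z.1 * φ j z.2))
        fun y => ?_) k
      · refine h2.trans ?_
        simp [Finset.sum_apply, Algebra.smul_def]
      · rw [← hφ, he_left, hφ, hφ, Finset.sum_mul_sum]
        have h3 : ∀ i j, (c i : M' → Ω) y * (c j : M' → Ω) y =
            ∑ k, algebraMap R Ω (c.repr (c i * c j) k) * (c k : M' → Ω) y := fun i j =>
          hexp (c i * c j) y
        have h4 : ∀ i j, φ i z.1 * (c i : M' → Ω) y * (φ j z.2 * (c j : M' → Ω) y) =
            φ i z.1 * φ j z.2 * ∑ k, algebraMap R Ω (c.repr (c i * c j) k) * (c k : M' → Ω) y := by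
          intro i j
          rw [← h3]
          ring
        simp only [h4, Finset.sum_mul, Finset.mul_sum]
        symm
        rw [Finset.sum_comm]
        refine Finset.sum_congr rfl fun i _ => ?_
        rw [Finset.sum_comm]
        refine Finset.sum_congr rfl fun j _ => Finset.sum_congr rfl fun k _ => ?_
        ring
    rw [h1]
    refine Submodule.sum_mem _ fun i _ => Submodule.sum_mem _ fun j _ =>
      Submodule.smul_mem _ _ (Submodule.subset_span ⟨φ i, hmem i, φ j, hmem j, rfl⟩)
  · intro h hh
    have hle : Algebra.adjoin R s ≤ (⊥ : Subalgebra R Ω).comap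
        (Pi.evalAlgHom R (fun _ : M => Ω) 0) := by
      rw [Algebra.adjoin_le_iff]
      rintro _ ⟨k, rfl⟩
      have h1 := congrFun (huniq (fun k => φ k 0) (fun k => algebraMap R Ω (c.repr 1 k))
        fun y => ?_) k
      · change φ k 0 ∈ (⊥ : Subalgebra R Ω)
        rw [show φ k 0 = _ from h1]
        exact Subalgebra.algebraMap_mem _ _
      · rw [← hφ, ← hexp]
        have h2 := he_left 0 0 y
        rw [add_zero] at h2
        have h3 : e 0 y = 1 := (mul_right_cancel₀ (he_ne 0 y) (by rw [one_mul]; exact h2)).symm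
        rw [h3]
        rfl
    obtain ⟨r, hr⟩ := Algebra.mem_bot.1 (hle hh)
    exact ⟨r, hr.symm⟩
  · intro h hh
    have hle : Algebra.adjoin R s ≤ (Algebra.adjoin R s).comap
        (pull R Ω fun x : M => -x) := by
      rw [Algebra.adjoin_le_iff]
      rintro _ ⟨k, rfl⟩
      let d : Fin n → equivInt R K Ω M' := fun i => ⟨fun y => (c i : M' → Ω) (-y),
        fun y => (c i).2.1 _, fun σ y => (congrArg (c i : M' → Ω) (smul_neg σ y).symm).trans ((c i).2.2 σ (-y))⟩
      have h1 : (pull R Ω fun x : M => -x) (φ k) = ∑ i, c.repr (d i) k • φ i := by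
        funext x
        have h2 := congrFun (huniq (fun k => φ k (-x))
          (fun k => ∑ i, algebraMap R Ω (c.repr (d i) k) * φ i x) fun y => ?_) k
        · refine h2.trans ?_
          simp [Finset.sum_apply, Algebra.smul_def]
        · rw [← hφ]
          have h3 : e (-x) y = e x (-y) := by
            have h4 := he_left (-x) x y
            have h5 := he_right x (-y) y
            rw [neg_add_cancel] at h4 h5
            have h6 := he_left 0 0 y
            rw [add_zero] at h6
            have h7 : e 0 y = 1 :=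
              (mul_right_cancel₀ (he_ne 0 y) (by rw [one_mul]; exact h6)).symm
            have h8 := he_right x 0 0
            rw [add_zero] at h8
            have h9 : e x 0 = 1 :=
              (mul_right_cancel₀ (he_ne x 0) (by rw [one_mul]; exact h8)).symm
            rw [h7] at h4
            rw [h9] at h5
            exact mul_right_cancel₀ (he_ne x y) (h4.symm.trans h5)
          rw [h3, hφ]
          have h10 : ∀ i, (c i : M' → Ω) (-y) = (d i : M' → Ω) y := fun i => rfl
          simp only [h10, hexp (d _) y, Finset.mul_sum, Finset.sum_mul]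
          rw [Finset.sum_comm]
          refine Finset.sum_congr rfl fun k _ => Finset.sum_congr rfl fun i _ => ?_
          ring
      change (pull R Ω fun x : M => -x) (φ k) ∈ Algebra.adjoin R s
      rw [h1]
      exact Subalgebra.sum_mem _ fun i _ => Subalgebra.smul_mem _ (hmem i) _
    exact hle hh

end Criterion

end Fermat.Agent.HopfOrder
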