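import Fermat.Agent.HopfOrder.Local
import Fermat.Agent.HopfOrder.Criterion
import Fermat.Agent.Frob.QbarInst
import Fermat.Prelude.Def_GaloisRep_Flat

/-!
The ring `ℤ_(ℓ)` and the criterion for Hopf orders over it.
-/

set_option autoImplicit false
set_option linter.unusedSectionVars false

open GaloisRep

namespace Fermat.Agent.HopfOrder

section RatLoc

variable (ℓ : ℕ) [hℓ : Fact ℓ.Prime]

theorem mem_ratLocalizedAt {q : ℚ} : q ∈ ratLocalizedAt ℓ ↔ q.den.Coprime ℓ := Iff.rfl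

theorem intCast_mem_ratLoc (n : ℤ) : (n : ℚ) ∈ ratLocalizedAt ℓ := by
  rw [mem_ratLocalizedAt]
  simp

instance isPrime_span : (Ideal.span {(ℓ : ℤ)}).IsPrime :=
  (Ideal.span_singleton_prime (by exact_mod_cast hℓ.out.ne_zero)).2
    (Nat.prime_iff_prime_int.1 hℓ.out)

theorem isLocalization_ratLocalizedAt :
    IsLocalization.AtPrime (ratLocalizedAt ℓ) (Ideal.span {(ℓ : ℤ)}) where
  map_units := by
    rintro ⟨n, hn⟩
    have hn' : ¬ (ℓ : ℤ) ∣ n := by
      intro h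
      exact hn (Ideal.mem_span_singleton.2 h)
    have hn0 : (n : ℚ) ≠ 0 := by
      intro h
      apply hn'
      rw [Int.cast_eq_zero.1 h]
      exact dvd_zero _
    have hmem : ((n : ℚ)⁻¹) ∈ ratLocalizedAt ℓ := by
      rw [mem_ratLocalizedAt, Rat.inv_intCast_den]
      split_ifs with h
      · simp
      · rw [Nat.coprime_comm, Nat.Prime.coprime_iff_not_dvd hℓ.out]
        intro h1
        exact hn' (Int.natCast_dvd.2 h1)
    refine IsUnit.of_mul_eq_one (⟨(n : ℚ)⁻¹, hmem⟩ : ratLocalizedAt ℓ) (Subtype.ext ?_)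
    change ((algebraMap ℤ (ratLocalizedAt ℓ) n : ratLocalizedAt ℓ) : ℚ) * (n : ℚ)⁻¹ = 1
    rw [show ((algebraMap ℤ (ratLocalizedAt ℓ) n : ratLocalizedAt ℓ) : ℚ) = (n : ℚ) by simp]
    exact mul_inv_cancel₀ hn0
  surj := by
    rintro ⟨q, hq⟩
    have hden : ((q.den : ℕ) : ℤ) ∉ Ideal.span {(ℓ : ℤ)} := by
      intro h
      rw [Ideal.mem_span_singleton, Int.natCast_dvd_natCast] at h
      have h1 := (Nat.coprime_comm.1 hq)
      rw [Nat.Prime.coprime_iff_not_dvd hℓ.out] at h1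
      exact h1 h
    refine ⟨⟨q.num, ⟨(q.den : ℤ), hden⟩⟩, Subtype.ext ?_⟩
    change q * ((algebraMap ℤ (ratLocalizedAt ℓ) (q.den : ℤ) : ratLocalizedAt ℓ) : ℚ) =
      ((algebraMap ℤ (ratLocalizedAt ℓ) q.num : ratLocalizedAt ℓ) : ℚ)
    simp
  exists_of_eq := by
    intro x y h
    refine ⟨1, ?_⟩
    have h1 := congrArg (fun z : ratLocalizedAt ℓ => (z : ℚ)) h
    simp at h1
    rw [h1]

theorem span_ne_bot : Ideal.span {(ℓ : ℤ)} ≠ ⊥ := by
  rw [Ne, Ideal.span_singleton_eq_bot]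
  exact_mod_cast hℓ.out.ne_zero

instance isDVR_ratLocalizedAt : IsDiscreteValuationRing (ratLocalizedAt ℓ) := by
  have := isLocalization_ratLocalizedAt ℓ
  exact IsLocalization.AtPrime.isDiscreteValuationRing_of_dedekind_domain ℤ (span_ne_bot ℓ)
    (ratLocalizedAt ℓ)

instance isFractionRing_ratLocalizedAt : IsFractionRing (ratLocalizedAt ℓ) ℚ := by
  have := isLocalization_ratLocalizedAt ℓ
  exact IsFractionRing.isFractionRing_of_isDomain_of_isLocalization
    (Ideal.span {(ℓ : ℤ)}).primeCompl (ratLocalizedAt ℓ) ℚ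

end RatLoc

section Qbar

/-- The absolute Galois group of `ℚ`. -/
abbrev GQ : Type := AlgebraicClosure ℚ ≃ₐ[ℚ] AlgebraicClosure ℚ

variable (ℓ : ℕ) [hℓ : Fact ℓ.Prime]

/-- Finite Galois modules with a Hopf order over `ℤ_(ℓ)`. -/
def IsFlatMod (M : Type) [AddCommGroup M] [DistribMulAction GQ M] : Prop :=
  ∃ H : Subalgebra (ratLocalizedAt ℓ) (M → AlgebraicClosure ℚ), IsHopfOrder H ∧
    ∀ h ∈ H, ∀ (σ : GQ) (x : M), h (σ • x) = σ (h x)

theorem injective_algebraMap_Qbar :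
    Function.Injective (algebraMap (ratLocalizedAt ℓ) (AlgebraicClosure ℚ)) := by
  rw [IsScalarTower.algebraMap_eq (ratLocalizedAt ℓ) ℚ (AlgebraicClosure ℚ)]
  exact (algebraMap ℚ (AlgebraicClosure ℚ)).injective.comp
    (IsFractionRing.injective (ratLocalizedAt ℓ) ℚ)

theorem IsFlatMod.exists_hopfAlgebra {M : Type} [AddCommGroup M] [DistribMulAction GQ M]
    [Finite M] (h : IsFlatMod ℓ M) :
    ∃ (H : Type) (_ : CommRing H) (_ : HopfAlgebra (ratLocalizedAt ℓ) H),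
      Module.Finite (ratLocalizedAt ℓ) H ∧ Module.Flat (ratLocalizedAt ℓ) H ∧
      Coalgebra.IsCocomm (ratLocalizedAt ℓ) H ∧
      ∃ e : WithConv (H →ₐ[ratLocalizedAt ℓ] AlgebraicClosure ℚ) ≃ M,
        (∀ f g, e (f * g) = e f + e g) ∧
        ∀ (σ : GQ) (f g : WithConv (H →ₐ[ratLocalizedAt ℓ] AlgebraicClosure ℚ)),
          (∀ h : H, g h = σ (f h)) → e g = σ • (e f) := by
  obtain ⟨H, hH, hequiv⟩ := h
  exact Fermat.Agent.HopfOrder.exists_hopfAlgebra H (injective_algebraMap_Qbar ℓ) hH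
    (fun (σ : GQ) x => σ x) (fun (σ : GQ) x => σ • x) hequiv

theorem algebraMap_mem_of_liesOver (A : ValuationSubring (AlgebraicClosure ℚ))
    (hA : A.LiesOverPrime ℓ) (r : ratLocalizedAt ℓ) :
    algebraMap (ratLocalizedAt ℓ) (AlgebraicClosure ℚ) r ∈ A := by
  obtain ⟨q, hq⟩ := r
  have h1 : algebraMap (ratLocalizedAt ℓ) (AlgebraicClosure ℚ) ⟨q, hq⟩ =
      (q : AlgebraicClosure ℚ) := by
    rw [IsScalarTower.algebraMap_apply (ratLocalizedAt ℓ) ℚ (AlgebraicClosure ℚ)]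
    exact eq_ratCast (algebraMap ℚ (AlgebraicClosure ℚ)) q
  rw [h1, Rat.cast_def]
  have hnum : ((q.num : ℤ) : AlgebraicClosure ℚ) ∈ A := intCast_mem A q.num
  have hden : ((q.den : ℕ) : AlgebraicClosure ℚ) ∈ A := natCast_mem A q.den
  have hunit : ((q.den : ℕ) : AlgebraicClosure ℚ) ∉ A.nonunits := by
    intro h
    have hcop : IsCoprime ((q.den : ℕ) : ℤ) (ℓ : ℤ) := Nat.isCoprime_iff_coprime.2 hq
    obtain ⟨a, b, hab⟩ := hcop
    have h2 : (a : AlgebraicClosure ℚ) * ((q.den : ℕ) : AlgebraicClosure ℚ) +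
        (b : AlgebraicClosure ℚ) * (ℓ : AlgebraicClosure ℚ) = 1 := by
      exact_mod_cast congrArg (fun z : ℤ => (z : AlgebraicClosure ℚ)) hab
    have h3 : ∀ (c : ℤ) (x : AlgebraicClosure ℚ), x ∈ A.nonunits →
        A.valuation ((c : AlgebraicClosure ℚ) * x) < 1 := by
      intro c x hx
      rw [map_mul]
      have h4 : A.valuation (c : AlgebraicClosure ℚ) ≤ 1 :=
        (A.valuation_le_one_iff _).2 (intCast_mem A c)
      exact lt_of_le_of_lt (mul_le_of_le_one_left' h4) hx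
    have h5 := lt_of_le_of_lt (Valuation.map_add A.valuation _ _)
      (max_lt (h3 a _ h) (h3 b _ hA))
    rw [h2, map_one] at h5
    exact lt_irrefl _ h5
  have h6 : A.valuation ((q.den : ℕ) : AlgebraicClosure ℚ) = 1 :=
    le_antisymm ((A.valuation_le_one_iff _).2 hden) (not_lt.1 hunit)
  rw [← A.valuation_le_one_iff, map_div₀, h6, div_one]
  exact (A.valuation_le_one_iff _).2 hnum

/-- **Flatness criterion.** -/
theorem isFlatMod_of_pairing {M M' : Type} [AddCommGroup M] [AddCommGroup M'] [Finite M]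
    [Finite M'] [DistribMulAction GQ M] [DistribMulAction GQ M']
    (hM' : IsContAction ℚ (AlgebraicClosure ℚ) M') (e : M → M' → AlgebraicClosure ℚ)
    (he_left : ∀ x x' y, e (x + x') y = e x y * e x' y)
    (he_right : ∀ x y y', e x (y + y') = e x y * e x y')
    (he_equiv : ∀ (σ : GQ) x y, e (σ • x) (σ • y) = σ (e x y))
    (he_ne : ∀ x y, e x y ≠ 0)
    (hinj : ∀ x, (∀ y, e x y = 1) → x = 0)
    (hloc : ∀ x, ∀ A : ValuationSubring (AlgebraicClosure ℚ), A.LiesOverPrime ℓ →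
      e x ∈ locRing (ratLocalizedAt ℓ) M' A) : IsFlatMod ℓ M := by
  refine criterion (R := ratLocalizedAt ℓ) (K := ℚ) hM' e he_left he_right he_equiv he_ne hinj
    fun x => ?_
  refine mem_span_of_local (e x) fun A hA hAm => hloc x A ?_
  have h1 : ¬ IsUnit (ℓ : ratLocalizedAt ℓ) := by
    intro h
    obtain ⟨⟨y, hy⟩, hy'⟩ := h.exists_right_inv
    have h2 : (ℓ : ℚ) * y = 1 := by
      have := congrArg (fun z : ratLocalizedAt ℓ => (z : ℚ)) hy'
      simpa using this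
    have h3 : y = (ℓ : ℚ)⁻¹ := by
      rw [eq_comm]
      exact inv_eq_of_mul_eq_one_right h2
    rw [mem_ratLocalizedAt, h3, Rat.inv_natCast_den, if_neg hℓ.out.ne_zero,
      Nat.coprime_self] at hy
    exact hℓ.out.one_lt.ne' hy
  have h4 := hAm _ h1
  have h5 : algebraMap (ratLocalizedAt ℓ) (AlgebraicClosure ℚ) (ℓ : ratLocalizedAt ℓ) =
      (ℓ : AlgebraicClosure ℚ) := map_natCast _ ℓ
  rw [h5] at h4
  exact h4

end Qbar

end Fermat.Agent.HopfOrder
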