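import Fermat.Agent.HopfOrder.Hopf

/-!
Equivariant integral functions on a finite Galois set form an order.
-/

set_option autoImplicit false
set_option linter.unusedSectionVars false

namespace Fermat.Agent.HopfOrder

variable {R K Ω : Type} [CommRing R] [IsDomain R] [IsPrincipalIdealRing R] [Field K] [Field Ω]
  [Algebra R K] [IsFractionRing R K] [Algebra K Ω] [Algebra R Ω] [IsScalarTower R K Ω]
  [IsGalois K Ω] {X : Type} [MulAction (Ω ≃ₐ[K] Ω) X]

/-- `K`-independent equivariant functions are `Ω`-independent. -/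
theorem linearIndependent_of_equivariant {ι : Type} (v : ι → X → Ω)
    (hv : ∀ i, ∀ (σ : Ω ≃ₐ[K] Ω) (x : X), v i (σ • x) = σ (v i x))
    (hli : LinearIndependent K v) : LinearIndependent Ω v := by
  classical
  rw [linearIndependent_iff']
  intro s
  induction s using Finset.induction_on with
  | empty => intro g _ i hi; simp at hi
  | insert a s ha ih =>
    intro g hg
    rw [Finset.sum_insert ha] at hg
    have hga : g a = 0 := by
      by_contra hne
      let c : ι → Ω := fun i => (g a)⁻¹ * g i
      have hc : v a + ∑ i ∈ s, c i • v i = 0 := by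
        have h1 := congrArg (fun f => (g a)⁻¹ • f) hg
        simp only [smul_add, Finset.smul_sum, smul_smul, smul_zero, inv_mul_cancel₀ hne,
          one_smul] at h1
        exact h1
      have hσ : ∀ σ : Ω ≃ₐ[K] Ω, v a + ∑ i ∈ s, σ (c i) • v i = 0 := by
        intro σ
        funext x
        have h1 := congrFun hc (σ⁻¹ • x)
        have h2 := congrArg σ h1
        simp only [Pi.add_apply, Finset.sum_apply, Pi.smul_apply, smul_eq_mul, Pi.zero_apply,
          map_add, map_sum, map_mul, map_zero] at h2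
        simp only [Pi.add_apply, Finset.sum_apply, Pi.smul_apply, smul_eq_mul, Pi.zero_apply]
        rw [← hv, smul_inv_smul] at h2
        rw [← h2]
        congr 1
        refine Finset.sum_congr rfl fun i _ => ?_
        rw [← hv, smul_inv_smul]
      have hfix : ∀ i ∈ s, ∀ σ : Ω ≃ₐ[K] Ω, σ (c i) = c i := by
        intro i hi σ
        have h1 : ∑ i ∈ s, (σ (c i) - c i) • v i = 0 := by
          simp only [sub_smul, Finset.sum_sub_distrib]
          have h2 := (hσ σ).trans hc.symm
          rw [add_right_inj] at h2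
          rw [h2, sub_self]
        exact sub_eq_zero.1 (ih (fun i => σ (c i) - c i) h1 i hi)
      have hK : ∀ i ∈ s, ∃ k : K, algebraMap K Ω k = c i := by
        intro i hi
        exact (InfiniteGalois.mem_range_algebraMap_iff_fixed (c i)).2 (hfix i hi)
      let k : ι → K := fun i => if h : i ∈ s then (hK i h).choose else if i = a then 1 else 0
      have hk : ∀ i ∈ s, algebraMap K Ω (k i) = c i := by
        intro i hi
        simp only [k, hi, dif_pos]
        exact (hK i hi).choose_spec
      have hka : k a = 1 := by simp [k, ha]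
      have h3 : ∑ i ∈ insert a s, k i • v i = 0 := by
        rw [Finset.sum_insert ha, hka, one_smul, ← hc]
        congr 1
        refine Finset.sum_congr rfl fun i hi => ?_
        rw [← hk i hi, algebraMap_smul]
      have h4 := linearIndependent_iff'.1 hli _ _ h3 a (Finset.mem_insert_self a s)
      rw [hka] at h4
      exact one_ne_zero h4
    intro i hi
    rcases Finset.mem_insert.1 hi with rfl | hi
    · exact hga
    · rw [hga, zero_smul, zero_add] at hg
      exact ih g hg i hi

variable (R K Ω X) in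
/-- The algebra of equivariant integral functions. -/
def equivInt : Subalgebra R (X → Ω) where
  carrier := {c | (∀ x, IsIntegral R (c x)) ∧ ∀ (σ : Ω ≃ₐ[K] Ω) (x : X), c (σ • x) = σ (c x)}
  mul_mem' := by
    rintro a b ⟨ha, ha'⟩ ⟨hb, hb'⟩
    exact ⟨fun x => (ha x).mul (hb x), fun σ x => by
      rw [Pi.mul_apply, Pi.mul_apply, ha', hb', map_mul]⟩
  add_mem' := by
    rintro a b ⟨ha, ha'⟩ ⟨hb, hb'⟩
    exact ⟨fun x => (ha x).add (hb x), fun σ x => by
      rw [Pi.add_apply, Pi.add_apply, ha', hb', map_add]⟩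
  algebraMap_mem' := by
    intro r
    refine ⟨fun x => isIntegral_algebraMap, fun σ x => ?_⟩
    rw [Pi.algebraMap_apply, Pi.algebraMap_apply, IsScalarTower.algebraMap_apply R K Ω,
      AlgEquiv.commutes]

theorem mem_equivInt {c : X → Ω} : c ∈ equivInt R K Ω X ↔
    (∀ x, IsIntegral R (c x)) ∧ ∀ (σ : Ω ≃ₐ[K] Ω) (x : X), c (σ • x) = σ (c x) := Iff.rfl

/-- Continuity of an action. -/
def IsContAction (K Ω X : Type) [Field K] [Field Ω] [Algebra K Ω] [MulAction (Ω ≃ₐ[K] Ω) X] :
    Prop :=
  ∃ L : IntermediateField K Ω, FiniteDimensional K L ∧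
    ∀ σ : Ω ≃ₐ[K] Ω, (∀ a ∈ L, σ a = a) → ∀ x : X, σ • x = x

theorem exists_fixed_ne (hX : IsContAction K Ω X) (x : X) (σ : Ω ≃ₐ[K] Ω) (hσ : σ • x ≠ x) :
    ∃ b : Ω, IsIntegral R b ∧ (∀ τ : Ω ≃ₐ[K] Ω, τ • x = x → τ b = b) ∧ σ b ≠ b := by
  obtain ⟨L, hL, hfix⟩ := hX
  let S : Subgroup (Ω ≃ₐ[K] Ω) := MulAction.stabilizer (Ω ≃ₐ[K] Ω) x
  have hle : L.fixingSubgroup ≤ S := by
    intro τ hτ
    rw [IntermediateField.mem_fixingSubgroup_iff] at hτ
    exact hfix τ hτ x
  have hopen : IsOpen (S : Set (Ω ≃ₐ[K] Ω)) :=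
    Subgroup.isOpen_mono hle (IntermediateField.fixingSubgroup_isOpen L)
  let S' : ClosedSubgroup (Ω ≃ₐ[K] Ω) := ⟨S, Subgroup.isClosed_of_isOpen S hopen⟩
  have hS' := InfiniteGalois.fixingSubgroup_fixedField S'
  have hnot : σ ∉ (IntermediateField.fixedField S'.1).fixingSubgroup := by
    rw [hS']
    exact hσ
  rw [IntermediateField.mem_fixingSubgroup_iff] at hnot
  push Not at hnot
  obtain ⟨b, hb, hne⟩ := hnot
  rw [IntermediateField.mem_fixedField_iff] at hb
  have halg : IsAlgebraic R b := by
    rw [IsFractionRing.isAlgebraic_iff R K Ω]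
    exact Algebra.IsAlgebraic.isAlgebraic b
  obtain ⟨r, hr, hint⟩ := halg.exists_integral_multiple
  have hrK : algebraMap R K r ≠ 0 := by
    rw [Ne, map_eq_zero_iff _ (IsFractionRing.injective R K)]
    exact hr
  have hcomm : ∀ τ : Ω ≃ₐ[K] Ω, τ (r • b) = r • τ b := by
    intro τ
    rw [← algebraMap_smul K r b, map_smul, algebraMap_smul]
  refine ⟨r • b, hint, fun τ hτ => ?_, fun h => hne ?_⟩
  · rw [hcomm, hb τ hτ]
  · rw [hcomm, ← algebraMap_smul K r b, ← algebraMap_smul K r (σ b)] at h
    exact smul_right_injective Ω hrK h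

theorem equivInt_separates (hX : IsContAction K Ω X) (x y : X) (hxy : x ≠ y) :
    ∃ h ∈ equivInt R K Ω X, h x ≠ h y := by
  classical
  by_cases hy : ∃ σ : Ω ≃ₐ[K] Ω, σ • x = y
  · obtain ⟨σ, hσ⟩ := hy
    obtain ⟨b, hint, hfix, hne⟩ := exists_fixed_ne (R := R) hX x σ (by rw [hσ]; exact hxy.symm)
    have hwd : ∀ τ τ' : Ω ≃ₐ[K] Ω, τ • x = τ' • x → τ b = τ' b := by
      intro τ τ' h
      have h1 : (τ'⁻¹ * τ) • x = x := by rw [mul_smul, h, inv_smul_smul]
      have h2 := congrArg τ' (hfix _ h1)
      rw [AlgEquiv.mul_apply] at h2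
      rw [← h2]
      exact (τ'.apply_symm_apply (τ b)).symm
    let c : X → Ω := fun z => if h : ∃ τ : Ω ≃ₐ[K] Ω, τ • x = z then h.choose b else 0
    have hc : ∀ τ : Ω ≃ₐ[K] Ω, c (τ • x) = τ b := by
      intro τ
      have h : ∃ τ' : Ω ≃ₐ[K] Ω, τ' • x = τ • x := ⟨τ, rfl⟩
      simp only [c, dif_pos h]
      exact hwd _ _ h.choose_spec
    have hc0 : ∀ z, (¬ ∃ τ : Ω ≃ₐ[K] Ω, τ • x = z) → c z = 0 := by
      intro z hz
      simp only [c, dif_neg hz]
    refine ⟨c, ⟨fun z => ?_, fun τ z => ?_⟩, ?_⟩
    · by_cases hz : ∃ τ : Ω ≃ₐ[K] Ω, τ • x = z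
      · obtain ⟨τ, rfl⟩ := hz
        rw [hc]
        exact hint.map (τ.toAlgHom.restrictScalars R)
      · rw [hc0 z hz]
        exact isIntegral_zero
    · by_cases hz : ∃ τ : Ω ≃ₐ[K] Ω, τ • x = z
      · obtain ⟨τ', rfl⟩ := hz
        rw [← mul_smul, hc, hc, AlgEquiv.mul_apply]
      · rw [hc0 z hz, map_zero]
        refine hc0 _ ?_
        rintro ⟨τ', hτ'⟩
        exact hz ⟨τ⁻¹ * τ', by rw [mul_smul, hτ', inv_smul_smul]⟩
    · have h1 := hc 1
      rw [one_smul] at h1
      rw [h1, ← hσ, hc]
      exact fun h => hne h.symm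
  · let c : X → Ω := fun z => if ∃ τ : Ω ≃ₐ[K] Ω, τ • x = z then 1 else 0
    have h1 : c x = 1 := if_pos ⟨1, one_smul _ x⟩
    have h2 : c y = 0 := if_neg hy
    refine ⟨c, ⟨fun z => ?_, fun τ z => ?_⟩, ?_⟩
    · simp only [c]
      split_ifs
      · exact isIntegral_one
      · exact isIntegral_zero
    · have h3 : (∃ τ' : Ω ≃ₐ[K] Ω, τ' • x = τ • z) ↔ (∃ τ' : Ω ≃ₐ[K] Ω, τ' • x = z) := by
        constructor
        · rintro ⟨τ', hτ'⟩
          exact ⟨τ⁻¹ * τ', by rw [mul_smul, hτ', inv_smul_smul]⟩
        · rintro ⟨τ', hτ'⟩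
          exact ⟨τ * τ', by rw [mul_smul, hτ']⟩
      simp only [c, h3]
      split_ifs <;> simp
    · rw [h1, h2]
      exact one_ne_zero

theorem indep_of_equivariant (n : ℕ) (H : Subalgebra R (X → Ω))
    (hH : ∀ h ∈ H, ∀ (σ : Ω ≃ₐ[K] Ω) (x : X), h (σ • x) = σ (h x)) (v : Fin n → H)
    (hv : LinearIndependent R v) : LinearIndependent Ω fun i => (v i : X → Ω) := by
  have h1 : LinearIndependent R (fun i => (v i : X → Ω)) :=
    hv.map' H.val.toLinearMap (LinearMap.ker_eq_bot.2 Subtype.val_injective)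
  rw [LinearIndependent.iff_fractionRing R K] at h1
  exact linearIndependent_of_equivariant _ (fun i => hH _ (v i).2) h1

variable (R) in
theorem mem_range_of_fixed {b : Ω} (hb : IsIntegral R b) (hfix : ∀ σ : Ω ≃ₐ[K] Ω, σ b = b) :
    ∃ r : R, algebraMap R Ω r = b := by
  obtain ⟨k, rfl⟩ := (InfiniteGalois.mem_range_algebraMap_iff_fixed b).2 hfix
  have h1 : IsIntegral R k := (isIntegral_algebraMap_iff (algebraMap K Ω).injective).1 hb
  obtain ⟨r, rfl⟩ := IsIntegrallyClosed.algebraMap_eq_of_integral h1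
  exact ⟨r, IsScalarTower.algebraMap_apply R K Ω r⟩

theorem equivInt_finite [Finite X] (hX : IsContAction K Ω X) :
    Module.Finite R (equivInt R K Ω X) := by
  classical
  have := Fintype.ofFinite X
  have hspan := IsOrder.span_eq_top_of_separates (equivInt R K Ω X) (equivInt_separates hX)
  obtain ⟨κ, a, -, hsp, hli⟩ := exists_linearIndependent' Ω
    (fun c : equivInt R K Ω X => (c : X → Ω))
  have hfinκ : Finite κ := hli.finite
  have := Fintype.ofFinite κ
  have hrange : Set.range (fun c : equivInt R K Ω X => (c : X → Ω)) =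
      (equivInt R K Ω X : Set (X → Ω)) := Subtype.range_coe
  rw [hrange, hspan] at hsp
  let u : κ → equivInt R K Ω X := a
  let b : Module.Basis κ Ω (X → Ω) := Module.Basis.mk hli (by rw [hsp])
  have hb : ∀ i, b i = (u i : X → Ω) := fun i => Module.Basis.mk_apply hli _ i
  -- the trace pairing
  have hT : ∀ c d : equivInt R K Ω X, ∃ r : R, algebraMap R Ω r =
      ∑ x, (c : X → Ω) x * (d : X → Ω) x := by
    intro c d
    refine mem_range_of_fixed (K := K) R ?_ fun σ => ?_
    · exact IsIntegral.sum _ fun x _ => (c.2.1 x).mul (d.2.1 x)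
    · rw [map_sum]
      refine Fintype.sum_equiv (MulAction.toPerm σ) _ _ fun x => ?_
      rw [map_mul, ← c.2.2, ← d.2.2]
      rfl
  choose T hT using hT
  obtain ⟨g, hg⟩ : ∃ g : Matrix κ κ R, ∀ i j, algebraMap R Ω (g i j) =
      ∑ x, (u i : X → Ω) x * (u j : X → Ω) x := ⟨fun i j => T (u i) (u j), fun i j => hT _ _⟩
  have hinj : ∀ q : κ → Ω, Matrix.vecMul q (g.map (algebraMap R Ω)) = 0 → q = 0 := by
    intro q hq
    have h1 : ∀ j, ∑ x, (∑ i, q i * (u i : X → Ω) x) * (u j : X → Ω) x = 0 := by
      intro j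
      have h2 := congrFun hq j
      simp only [Matrix.vecMul, dotProduct, Matrix.map_apply, hg, Pi.zero_apply] at h2
      rw [← h2]
      simp only [Finset.mul_sum, Finset.sum_mul]
      rw [Finset.sum_comm]
      refine Finset.sum_congr rfl fun i _ => Finset.sum_congr rfl fun x _ => ?_
      ring
    have h3 : ∀ φ : X → Ω, ∑ x, (∑ i, q i * (u i : X → Ω) x) * φ x = 0 := by
      intro φ
      conv_lhs => rw [← b.sum_repr φ]
      simp only [Finset.sum_apply, Pi.smul_apply, hb, smul_eq_mul, Finset.mul_sum]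
      rw [Finset.sum_comm]
      refine Finset.sum_eq_zero fun j _ => ?_
      have h4 := h1 j
      have h5 : ∑ x, (∑ i, q i * (u i : X → Ω) x) * (b.repr φ j * (u j : X → Ω) x) =
          b.repr φ j * ∑ x, (∑ i, q i * (u i : X → Ω) x) * (u j : X → Ω) x := by
        rw [Finset.mul_sum]
        refine Finset.sum_congr rfl fun x _ => ?_
        ring
      rw [h5, h4, mul_zero]
    have h6 : ∑ i, q i • b i = 0 := by
      funext x
      have h7 := h3 (Pi.single x 1)
      rw [Finset.sum_eq_single x] at h7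
      · simpa [hb] using h7
      · intro y _ hy
        simp [hy]
      · intro h
        exact absurd (Finset.mem_univ x) h
    have h8 := Fintype.linearIndependent_iff.1 b.linearIndependent q h6
    funext i
    exact h8 i
  have hdet : g.det ≠ 0 := by
    intro h0
    have h1 : (g.map (algebraMap R Ω)).det = 0 := by
      have h2 := RingHom.map_det (algebraMap R Ω) g
      rw [h0, map_zero] at h2
      exact h2.symm
    obtain ⟨q, hq, hq0⟩ := Matrix.exists_vecMul_eq_zero_iff.2 h1
    exact hq (hinj q hq0)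
  have hcoef : ∀ c : equivInt R K Ω X, g.det • c ∈ Submodule.span R (Set.range u) := by
    intro c
    let q : κ → Ω := b.repr (c : X → Ω)
    let r : κ → R := fun j => T c (u j)
    have h1 : Matrix.vecMul q (g.map (algebraMap R Ω)) = fun j => algebraMap R Ω (r j) := by
      funext j
      simp only [Matrix.vecMul, dotProduct, Matrix.map_apply, hg, hT, r]
      have h2 : ∀ x, (c : X → Ω) x = ∑ i, q i * (u i : X → Ω) x := by
        intro x
        have h3 := congrFun (b.sum_repr (c : X → Ω)) x
        rw [← h3]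
        simp [hb, q]
      simp only [h2, Finset.mul_sum, Finset.sum_mul]
      rw [Finset.sum_comm]
      refine Finset.sum_congr rfl fun i _ => Finset.sum_congr rfl fun x _ => ?_
      ring
    have h4 : ∀ i, algebraMap R Ω g.det * q i =
        algebraMap R Ω (Matrix.vecMul r g.adjugate i) := by
      intro i
      have h5 := congrArg (fun w => Matrix.vecMul w (g.map (algebraMap R Ω)).adjugate i) h1
      simp only [Matrix.vecMul_vecMul, Matrix.mul_adjugate] at h5
      have h6 : (g.map (algebraMap R Ω)).det = algebraMap R Ω g.det :=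
        (RingHom.map_det (algebraMap R Ω) g).symm
      have h7 : (g.map (algebraMap R Ω)).adjugate = g.adjugate.map (algebraMap R Ω) :=
        (RingHom.map_adjugate (algebraMap R Ω) g).symm
      rw [h6, h7] at h5
      simp only [Matrix.vecMul_smul, Matrix.vecMul_one, Pi.smul_apply, smul_eq_mul] at h5
      rw [h5]
      simp [Matrix.vecMul, dotProduct]
    have h8 : g.det • c = ∑ i, Matrix.vecMul r g.adjugate i • u i := by
      apply Subtype.ext
      funext x
      have h9 := congrFun (b.sum_repr (c : X → Ω)) x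
      have h10 : ((g.det • c : equivInt R K Ω X) : X → Ω) x =
          algebraMap R Ω g.det * (c : X → Ω) x := by
        rw [← Algebra.smul_def]
        rfl
      rw [h10, ← h9, AddSubmonoidClass.coe_finsetSum]
      simp only [Finset.sum_apply, Pi.smul_apply, smul_eq_mul, hb, Finset.mul_sum]
      refine Finset.sum_congr rfl fun i _ => ?_
      rw [← mul_assoc]
      have h11 := h4 i
      simp only [q] at h11
      rw [h11, ← Algebra.smul_def]
      rfl
    rw [h8]
    exact Submodule.sum_mem _ fun i _ => Submodule.smul_mem _ _ (Submodule.subset_span ⟨i, rfl⟩)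
  have htf : Module.IsTorsionFree R Ω := by
    rw [Module.isTorsionFree_iff_algebraMap_injective, IsScalarTower.algebraMap_eq R K Ω]
    exact (algebraMap K Ω).injective.comp (IsFractionRing.injective R K)
  have hN : Module.Finite R (Submodule.span R (Set.range u)) :=
    Module.Finite.span_of_finite R (Set.finite_range u)
  let f : equivInt R K Ω X →ₗ[R] Submodule.span R (Set.range u) :=
    (LinearMap.lsmul R (equivInt R K Ω X) g.det).codRestrict _ hcoef
  have hNoeth : IsNoetherian R (Submodule.span R (Set.range u)) :=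
    isNoetherian_span_of_finite R (Set.finite_range u)
  refine Module.Finite.of_injective f ?_
  intro c d hcd
  have h1 := congrArg (fun z : Submodule.span R (Set.range u) => (z : equivInt R K Ω X)) hcd
  have h2 : g.det • c = g.det • d := h1
  exact smul_right_injective _ hdet h2

theorem equivInt_isOrder [Finite X] (hX : IsContAction K Ω X) : IsOrder (equivInt R K Ω X) :=
  ⟨equivInt_finite hX, fun n v hv => indep_of_equivariant (K := K) n _
    (fun h (hh : h ∈ equivInt R K Ω X) => hh.2) v hv, equivInt_separates hX⟩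

end Fermat.Agent.HopfOrder
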