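import Fermat.Agent.HopfOrder.Closure
import Mathlib.GroupTheory.FiniteAbelian.Duality
import Mathlib.RingTheory.RootsOfUnity.AlgebraicallyClosed

/-!
Closure properties of finite flat Galois modules: submodules, finite products, duals, quotients.
-/

set_option autoImplicit false
set_option linter.unusedSectionVars false

open GaloisRep

namespace Fermat.Agent.HopfOrder

local notation "Ω" => AlgebraicClosure ℚ

variable {ℓ : ℕ} [hℓ : Fact ℓ.Prime]

/-- Equivariant injections. -/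
theorem IsFlatMod.of_injective {M N : Type} [AddCommGroup M] [AddCommGroup N]
    [DistribMulAction GQ M] [DistribMulAction GQ N] (h : IsFlatMod ℓ M) (f : N →+ M)
    (hf : Function.Injective f) (heq : ∀ (σ : GQ) x, f (σ • x) = σ • f x) : IsFlatMod ℓ N := by
  obtain ⟨H, hH, hequiv⟩ := h
  exact ⟨_, isHopfOrder_map (K := ℚ) f hf heq hH hequiv⟩

theorem IsFlatMod.isContAction {M : Type} [AddCommGroup M] [DistribMulAction GQ M] [Finite M]
    (h : IsFlatMod ℓ M) : IsContAction ℚ (AlgebraicClosure ℚ) M := by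
  classical
  obtain ⟨H, hH, hequiv⟩ := h
  obtain ⟨n, b, b', hb⟩ := hH.toIsOrder.exists_basis (injective_algebraMap_Qbar ℓ)
  have := Fintype.ofFinite M
  let S : Set (AlgebraicClosure ℚ) := Set.range fun z : Fin n × M => (b z.1 : M → AlgebraicClosure ℚ) z.2
  have hS : S.Finite := Set.finite_range _
  have : Finite S := hS
  refine ⟨IntermediateField.adjoin ℚ S, IntermediateField.finiteDimensional_adjoin fun x _ =>
    Algebra.IsIntegral.isIntegral x, fun σ hσ x => ?_⟩
  by_contra hne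
  obtain ⟨h, hh, h1⟩ := hH.separates _ _ hne
  apply h1
  rw [hequiv h hh]
  have h2 : ((⟨h, hh⟩ : H) : M → AlgebraicClosure ℚ) x =
      ∑ i, algebraMap (ratLocalizedAt ℓ) (AlgebraicClosure ℚ) (b.repr ⟨h, hh⟩ i) *
        (b i : M → AlgebraicClosure ℚ) x := by
    conv_lhs => rw [← b.sum_repr ⟨h, hh⟩]
    rw [AddSubmonoidClass.coe_finsetSum, Finset.sum_apply]
    refine Finset.sum_congr rfl fun i _ => ?_
    rw [← Algebra.smul_def]
    rfl
  change σ (((⟨h, hh⟩ : H) : M → AlgebraicClosure ℚ) x) = ((⟨h, hh⟩ : H) : M → AlgebraicClosure ℚ) x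
  rw [h2, map_sum]
  refine Finset.sum_congr rfl fun i _ => ?_
  rw [map_mul, IsScalarTower.algebraMap_apply (ratLocalizedAt ℓ) ℚ (AlgebraicClosure ℚ),
    AlgEquiv.commutes]
  congr 1
  exact hσ _ (IntermediateField.subset_adjoin ℚ S ⟨(i, x), rfl⟩)

/-- The pairing criterion with a flat second argument. -/
theorem isFlatMod_of_pairing_flat {M M' : Type} [AddCommGroup M] [AddCommGroup M'] [Finite M]
    [Finite M'] [DistribMulAction GQ M] [DistribMulAction GQ M']
    (hM' : IsFlatMod ℓ M') (e : M → M' → AlgebraicClosure ℚ)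
    (he_left : ∀ x x' y, e (x + x') y = e x y * e x' y)
    (he_right : ∀ x y y', e x (y + y') = e x y * e x y')
    (he_equiv : ∀ (σ : GQ) x y, e (σ • x) (σ • y) = σ (e x y))
    (he_ne : ∀ x y, e x y ≠ 0)
    (hinj : ∀ x, (∀ y, e x y = 1) → x = 0) : IsFlatMod ℓ M := by
  refine isFlatMod_of_pairing ℓ hM'.isContAction e he_left he_right he_equiv he_ne hinj ?_
  intro x A hA
  obtain ⟨H, hH, hequiv⟩ := hM'
  obtain ⟨n, b, a, ha, hexp⟩ := exists_integral_expansion (injective_algebraMap_Qbar ℓ) hH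
    (he_right x) (he_ne x 0)
  rw [hexp]
  have hAR : ∀ q : ratLocalizedAt ℓ, algebraMap (ratLocalizedAt ℓ) (AlgebraicClosure ℚ) q ∈ A :=
    algebraMap_mem_of_liesOver ℓ A hA
  refine Subalgebra.sum_mem _ fun i _ => ?_
  have h1 : (a i) • (b i : M' → AlgebraicClosure ℚ) =
      (⟨a i, isIntegral_mem A hAR (ha i)⟩ : A) • (b i : M' → AlgebraicClosure ℚ) := rfl
  rw [h1]
  refine Subalgebra.smul_mem _ (mem_locRing_of_mem A ⟨fun y => ?_, hequiv _ (b i).2⟩) _
  have := hH.finite
  have h2 : IsIntegral (ratLocalizedAt ℓ) (b i) := Algebra.IsIntegral.isIntegral _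
  have h3 := h2.map ((Pi.evalAlgHom (ratLocalizedAt ℓ) (fun _ => AlgebraicClosure ℚ) y).comp H.val)
  exact h3

section Dual

/-- The character group. -/
def CDual (M : Type) [AddCommGroup M] : Type := Additive (Multiplicative M →* (AlgebraicClosure ℚ)ˣ)

variable (M : Type) [AddCommGroup M]

noncomputable instance : AddCommGroup (CDual M) :=
  inferInstanceAs (AddCommGroup (Additive (Multiplicative M →* (AlgebraicClosure ℚ)ˣ)))

instance [Finite M] : Finite (CDual M) := by
  obtain ⟨e⟩ := CommGroup.monoidHom_mulEquiv_of_hasEnoughRootsOfUnity (Multiplicative M)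
    (AlgebraicClosure ℚ)
  have : Finite (Multiplicative M →* (AlgebraicClosure ℚ)ˣ) := Finite.of_equiv _ e.toEquiv.symm
  exact Finite.of_equiv _ (Additive.ofMul (α := Multiplicative M →* (AlgebraicClosure ℚ)ˣ))

variable {M}

/-- The value of a character. -/
noncomputable def CDual.ev (φ : CDual M) (x : M) : AlgebraicClosure ℚ :=
  ((Additive.toMul (φ : Additive (Multiplicative M →* (AlgebraicClosure ℚ)ˣ)))
    (Multiplicative.ofAdd x) : (AlgebraicClosure ℚ)ˣ)

theorem CDual.ev_ne_zero (φ : CDual M) (x : M) : φ.ev x ≠ 0 := Units.ne_zero _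

theorem CDual.ev_add (φ : CDual M) (x y : M) : φ.ev (x + y) = φ.ev x * φ.ev y := by
  unfold CDual.ev
  rw [ofAdd_add, map_mul, Units.val_mul]

theorem CDual.add_ev (φ ψ : CDual M) (x : M) : (φ + ψ).ev x = φ.ev x * ψ.ev x := rfl

theorem CDual.zero_ev (x : M) : (0 : CDual M).ev x = 1 := rfl

theorem CDual.ext {φ ψ : CDual M} (h : ∀ x, φ.ev x = ψ.ev x) : φ = ψ := by
  apply Additive.toMul.injective
  refine MonoidHom.ext fun x => Units.ext ?_
  exact h (Multiplicative.toAdd x)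

/-- Constructor -/
noncomputable def CDual.mk (f : M → AlgebraicClosure ℚ) (h0 : ∀ x, f x ≠ 0)
    (h : ∀ x y, f (x + y) = f x * f y) : CDual M :=
  Additive.ofMul (MonoidHom.mk' (fun x => Units.mk0 (f (Multiplicative.toAdd x)) (h0 _))
    fun x y => Units.ext (h _ _))

@[simp] theorem CDual.mk_ev (f : M → AlgebraicClosure ℚ) (h0 : ∀ x, f x ≠ 0)
    (h : ∀ x y, f (x + y) = f x * f y) (x : M) : (CDual.mk f h0 h).ev x = f x := rfl

variable [DistribMulAction GQ M]

noncomputable instance : DistribMulAction GQ (CDual M) where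
  smul σ φ := CDual.mk (fun x => σ (φ.ev (σ⁻¹ • x)))
    (fun x => (map_ne_zero σ).2 (φ.ev_ne_zero _))
    (fun _ _ => by rw [smul_add, φ.ev_add, map_mul])
  one_smul φ := CDual.ext fun x => by
    change (1 : GQ) (φ.ev ((1 : GQ)⁻¹ • x)) = _
    rw [inv_one, one_smul]
    rfl
  mul_smul σ τ φ := CDual.ext fun x => by
    change (σ * τ) (φ.ev ((σ * τ)⁻¹ • x)) = σ (τ (φ.ev (τ⁻¹ • σ⁻¹ • x)))
    rw [mul_inv_rev, mul_smul]
    rfl
  smul_zero σ := CDual.ext fun x => by
    change σ ((0 : CDual M).ev (σ⁻¹ • x)) = _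
    rw [CDual.zero_ev, CDual.zero_ev, map_one]
  smul_add σ φ ψ := CDual.ext fun x => by
    change σ ((φ + ψ).ev (σ⁻¹ • x)) = σ (φ.ev (σ⁻¹ • x)) * σ (ψ.ev (σ⁻¹ • x))
    rw [CDual.add_ev, map_mul]

theorem CDual.smul_ev (σ : GQ) (φ : CDual M) (x : M) : (σ • φ).ev x = σ (φ.ev (σ⁻¹ • x)) := rfl

theorem CDual.exists_ev_ne_one [Finite M] {x : M} (hx : x ≠ 0) : ∃ φ : CDual M, φ.ev x ≠ 1 := by
  obtain ⟨φ, hφ⟩ := CommGroup.exists_apply_ne_one_of_hasEnoughRootsOfUnity (Multiplicative M)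
    (AlgebraicClosure ℚ) (a := Multiplicative.ofAdd x) (fun h => hx (by simpa using h))
  refine ⟨Additive.ofMul φ, fun h => hφ (Units.ext h)⟩

end Dual

theorem IsFlatMod.dual {M : Type} [AddCommGroup M] [DistribMulAction GQ M] [Finite M]
    (h : IsFlatMod ℓ M) : IsFlatMod ℓ (CDual M) := by
  refine isFlatMod_of_pairing_flat h (fun φ x => φ.ev x) (fun φ ψ x => CDual.add_ev φ ψ x)
    (fun φ x y => φ.ev_add x y) (fun σ φ x => ?_) (fun φ x => φ.ev_ne_zero x)
    (fun φ hφ => CDual.ext hφ)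
  rw [CDual.smul_ev, inv_smul_smul]

theorem IsFlatMod.of_surjective {M Q : Type} [AddCommGroup M] [AddCommGroup Q]
    [DistribMulAction GQ M] [DistribMulAction GQ Q] [Finite M] (h : IsFlatMod ℓ M) (f : M →+ Q)
    (hf : Function.Surjective f) (heq : ∀ (σ : GQ) x, f (σ • x) = σ • f x) : IsFlatMod ℓ Q := by
  have : Finite Q := Finite.of_surjective f hf
  have h1 : IsFlatMod ℓ (CDual Q) := by
    refine h.dual.of_injective
      (AddMonoidHom.mk' (fun φ => CDual.mk (fun x => φ.ev (f x)) (fun x => φ.ev_ne_zero _)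
        (fun _ _ => by rw [map_add, φ.ev_add])) fun φ ψ => CDual.ext fun _ => rfl) ?_ ?_
    · intro φ ψ hφψ
      refine CDual.ext fun y => ?_
      obtain ⟨x, rfl⟩ := hf y
      exact congrArg (fun θ : CDual M => θ.ev x) hφψ
    · intro σ φ
      refine CDual.ext fun x => ?_
      change (σ • φ).ev (f x) = σ (φ.ev (f (σ⁻¹ • x)))
      rw [CDual.smul_ev, heq]
  refine isFlatMod_of_pairing_flat h1 (fun x φ => φ.ev x) (fun x y φ => φ.ev_add x y)
    (fun x φ ψ => CDual.add_ev φ ψ x) (fun σ x φ => ?_) (fun x φ => φ.ev_ne_zero x)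
    (fun x hx => ?_)
  · rw [CDual.smul_ev, inv_smul_smul]
  · by_contra hne
    obtain ⟨φ, hφ⟩ := CDual.exists_ev_ne_one hne
    exact hφ (hx φ)

theorem IsFlatMod.pi {ι : Type} [Finite ι] {M : ι → Type} [∀ i, AddCommGroup (M i)]
    [∀ i, DistribMulAction GQ (M i)] (h : ∀ i, IsFlatMod ℓ (M i)) :
    IsFlatMod ℓ (∀ i, M i) := by
  choose H hH hequiv using h
  exact exists_isHopfOrder_pi (K := ℚ) H hH hequiv

end Fermat.Agent.HopfOrder
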