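import Mathlib

/-!
Hopf orders in algebras of functions on finite groups: an `R`-subalgebra `H` of the algebra of
functions `M → Ω` which is finite, whose `R`-independent elements are `Ω`-independent, which
separates points and is closed under comultiplication gives a finite flat commutative cocommutative
Hopf algebra over `R` whose `Ω`-valued points are `M`.
-/

set_option autoImplicit false
set_option linter.unusedSectionVars false

open scoped TensorProduct

namespace Fermat.Agent.HopfOrder

section Ext

variable {R Ω : Type} [CommRing R] [Field Ω] [Algebra R Ω]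
variable {X Y Z A B : Type} [CommRing A] [Algebra R A] [CommRing B] [Algebra R B]

variable (R Ω) in
/-- Pull back functions along a map. -/
def pull (u : Z → X) : (X → Ω) →ₐ[R] (Z → Ω) where
  toFun φ := fun z => φ (u z)
  map_one' := rfl
  map_mul' _ _ := rfl
  map_zero' := rfl
  map_add' _ _ := rfl
  commutes' _ := rfl

@[simp] theorem pull_apply (u : Z → X) (φ : X → Ω) (z : Z) : pull R Ω u φ z = φ (u z) := rfl

/-- External product of realizations as functions. -/
noncomputable def ext (f : A →ₐ[R] (X → Ω)) (g : B →ₐ[R] (Y → Ω)) : A ⊗[R] B →ₐ[R] (X × Y → Ω) :=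
  Algebra.TensorProduct.lift ((pull R Ω Prod.fst).comp f) ((pull R Ω Prod.snd).comp g)
    fun _ _ => Commute.all _ _

@[simp] theorem ext_tmul (f : A →ₐ[R] (X → Ω)) (g : B →ₐ[R] (Y → Ω)) (a : A) (b : B) (z : X × Y) :
    ext f g (a ⊗ₜ b) z = f a z.1 * g b z.2 := by
  simp [ext]

/-- A realization of a finite free algebra as an algebra of functions, with `Ω`-independent
basis. -/
def Good (f : A →ₐ[R] (X → Ω)) : Prop :=
  ∃ (ι : Type) (_ : Finite ι) (b : Module.Basis ι R A), LinearIndependent Ω fun i => f (b i)

theorem Good.injective (hR : Function.Injective (algebraMap R Ω)) {f : A →ₐ[R] (X → Ω)}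
    (hf : Good f) : Function.Injective f := by
  obtain ⟨ι, hι, b, hb⟩ := hf
  have := Fintype.ofFinite ι
  rw [injective_iff_map_eq_zero]
  intro a ha
  have h1 : ∑ i, algebraMap R Ω (b.repr a i) • f (b i) = 0 := by
    rw [← ha]
    conv_rhs => rw [← b.sum_repr a, map_sum]
    refine Finset.sum_congr rfl fun i _ => ?_
    rw [map_smul, algebraMap_smul]
  rw [Fintype.linearIndependent_iff] at hb
  have h2 := hb _ h1
  refine b.ext_elem fun i => ?_
  rw [map_zero, Finsupp.zero_apply]
  exact hR (by rw [h2 i, map_zero])

theorem Good.ext {f : A →ₐ[R] (X → Ω)} (hf : Good f) {g : B →ₐ[R] (Y → Ω)} (hg : Good g) :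
    Good (ext f g) := by
  obtain ⟨ι, hι, b, hb⟩ := hf
  obtain ⟨κ, hκ, c, hc⟩ := hg
  have := Fintype.ofFinite ι
  have := Fintype.ofFinite κ
  refine ⟨ι × κ, inferInstance, b.tensorProduct c, ?_⟩
  rw [Fintype.linearIndependent_iff] at hb hc ⊢
  intro u hu
  have h1 : ∀ i : ι, ∀ j : κ, u (i, j) = 0 := by
    have h2 : ∀ (i : ι) (y : Y), ∑ j, u (i, j) * g (c j) y = 0 := by
      intro i y
      refine hb (fun i => ∑ j, u (i, j) * g (c j) y) ?_ i
      funext x
      have h3 := congrFun hu (x, y)
      rw [Fintype.sum_prod_type] at h3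
      simp only [Finset.sum_apply, Pi.smul_apply, Module.Basis.tensorProduct_apply, ext_tmul,
        smul_eq_mul, Pi.zero_apply] at h3 ⊢
      rw [← h3]
      refine Finset.sum_congr rfl fun i _ => ?_
      rw [Finset.sum_mul]
      refine Finset.sum_congr rfl fun j _ => ?_
      ring
    intro i
    refine hc (fun j => u (i, j)) ?_
    funext y
    simp only [Finset.sum_apply, Pi.smul_apply, smul_eq_mul, Pi.zero_apply]
    exact h2 i y
  rintro ⟨i, j⟩
  exact h1 i j

end Ext

/-- Orders in the algebra of functions on a set. -/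
structure IsOrder {R Ω M : Type} [CommRing R] [Field Ω] [Algebra R Ω]
    (H : Subalgebra R (M → Ω)) : Prop where
  finite : Module.Finite R H
  indep : ∀ (n : ℕ) (v : Fin n → H), LinearIndependent R v →
    LinearIndependent Ω fun i => (v i : M → Ω)
  separates : ∀ x y : M, x ≠ y → ∃ h ∈ H, h x ≠ h y

/-- Hopf orders in the algebra of functions on a group. -/
structure IsHopfOrder {R Ω M : Type} [CommRing R] [Field Ω] [Algebra R Ω] [AddCommGroup M]
    (H : Subalgebra R (M → Ω)) : Prop extends IsOrder H where
  comul : ∀ h ∈ H, (fun z : M × M => h (z.1 + z.2)) ∈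
    Submodule.span R {φ : M × M → Ω | ∃ a ∈ H, ∃ b ∈ H, φ = fun z => a z.1 * b z.2}
  counit : ∀ h ∈ H, ∃ r : R, h 0 = algebraMap R Ω r
  antipode : ∀ h ∈ H, (fun x => h (-x)) ∈ H

namespace IsOrder

variable {R Ω M : Type} [CommRing R] [IsDomain R] [IsPrincipalIdealRing R] [Field Ω] [Algebra R Ω]
  {H : Subalgebra R (M → Ω)}

theorem good (hR : Function.Injective (algebraMap R Ω)) (hH : IsOrder H) : Good H.val := by
  have := hH.finite
  have h0 : IsDomain R := inferInstance
  have h1 : Module.IsTorsionFree R Ω := by
    rw [Module.isTorsionFree_iff_algebraMap_injective]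
    exact hR
  have h2 : Module.IsTorsionFree R H := inferInstance
  have h3 : Module.Free R H := inferInstance
  let b := Module.finBasis R H
  exact ⟨Fin (Module.finrank R H), inferInstance, b, hH.indep _ b b.linearIndependent⟩

end IsOrder

namespace IsHopfOrder

variable {R Ω M : Type} [CommRing R] [IsDomain R] [IsPrincipalIdealRing R] [Field Ω] [Algebra R Ω]
  [AddCommGroup M] {H : Subalgebra R (M → Ω)}

variable (H) in
/-- The comultiplication of functions. -/
noncomputable def addPull : H →ₐ[R] (M × M → Ω) :=
  (pull R Ω fun z : M × M => z.1 + z.2).comp H.val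

theorem addPull_mem (hH : IsHopfOrder H) (h : H) : addPull H h ∈ (ext H.val H.val).range := by
  have h1 : Submodule.span R {φ : M × M → Ω | ∃ a ∈ H, ∃ b ∈ H, φ = fun z => a z.1 * b z.2} ≤
      Subalgebra.toSubmodule (ext H.val H.val).range := by
    rw [Submodule.span_le]
    rintro φ ⟨a, ha, b, hb, rfl⟩
    refine ⟨(⟨a, ha⟩ : H) ⊗ₜ (⟨b, hb⟩ : H), ?_⟩
    funext z
    simp
  exact h1 (hH.comul h h.2)

/-- The comultiplication. -/
noncomputable def comulHom (hR : Function.Injective (algebraMap R Ω)) (hH : IsHopfOrder H) :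
    H →ₐ[R] H ⊗[R] H :=
  (AlgEquiv.ofInjective (ext H.val H.val) (((hH.good hR).ext (hH.good hR)).injective hR)).symm
    |>.toAlgHom.comp ((addPull H).codRestrict _ hH.addPull_mem)

theorem ext_comulHom (hR : Function.Injective (algebraMap R Ω)) (hH : IsHopfOrder H) (h : H)
    (z : M × M) : ext H.val H.val (comulHom hR hH h) z = (h : M → Ω) (z.1 + z.2) := by
  have h1 := AlgEquiv.apply_symm_apply (AlgEquiv.ofInjective (ext H.val H.val)
    (((hH.good hR).ext (hH.good hR)).injective hR)) ((addPull H).codRestrict _ hH.addPull_mem h)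
  have h2 := congrArg (fun x : (ext H.val H.val).range => (x : M × M → Ω) z) h1
  exact h2

/-- The counit. -/
noncomputable def counitHom (hR : Function.Injective (algebraMap R Ω)) (hH : IsHopfOrder H) :
    H →ₐ[R] R :=
  (AlgEquiv.ofInjective (Algebra.ofId R Ω) hR).symm.toAlgHom.comp
    (((Pi.evalAlgHom R (fun _ : M => Ω) 0).comp H.val).codRestrict _ fun h => by
      obtain ⟨r, hr⟩ := hH.counit h h.2
      exact ⟨r, hr.symm⟩)

theorem algebraMap_counitHom (hR : Function.Injective (algebraMap R Ω)) (hH : IsHopfOrder H)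
    (h : H) : algebraMap R Ω (counitHom hR hH h) = (h : M → Ω) 0 := by
  have h1 := AlgEquiv.apply_symm_apply (AlgEquiv.ofInjective (Algebra.ofId R Ω) hR)
    (((Pi.evalAlgHom R (fun _ : M => Ω) 0).comp H.val).codRestrict _ (fun h => by
      obtain ⟨r, hr⟩ := hH.counit h h.2
      exact ⟨r, hr.symm⟩) h)
  exact congrArg (fun x : (Algebra.ofId R Ω).range => (x : Ω)) h1

/-- The antipode. -/
noncomputable def antipodeHom (hH : IsHopfOrder H) : H →ₐ[R] H :=
  ((pull R Ω fun x : M => -x).comp H.val).codRestrict _ fun h => hH.antipode h h.2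

@[simp] theorem antipodeHom_apply (hH : IsHopfOrder H) (h : H) (x : M) :
    (antipodeHom hH h : M → Ω) x = (h : M → Ω) (-x) := rfl

theorem coassoc_aux1 (b : H) (z : M × M × M) (s : H ⊗[R] H) :
    ext H.val (ext H.val H.val) ((Algebra.TensorProduct.assoc R R R H H H) (s ⊗ₜ b)) z =
      ext H.val H.val s (z.1, z.2.1) * (b : M → Ω) z.2.2 := by
  induction s using TensorProduct.induction_on with
  | zero => simp
  | tmul c d => simp [mul_assoc]
  | add s t hs ht =>
    rw [TensorProduct.add_tmul, map_add, map_add, Pi.add_apply, hs, ht, map_add,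
      Pi.add_apply, add_mul]

theorem coassoc_aux2 (hR : Function.Injective (algebraMap R Ω)) (hH : IsHopfOrder H)
    (z : M × M × M) (t : H ⊗[R] H) :
    ext H.val (ext H.val H.val) ((Algebra.TensorProduct.assoc R R R H H H)
      (Algebra.TensorProduct.map (comulHom hR hH) (AlgHom.id R H) t)) z =
      ext H.val H.val t (z.1 + z.2.1, z.2.2) := by
  induction t using TensorProduct.induction_on with
  | zero => simp
  | tmul c d =>
    rw [Algebra.TensorProduct.map_tmul, coassoc_aux1, ext_comulHom]
    simp
  | add s t hs ht =>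
    rw [map_add, map_add, map_add, Pi.add_apply, hs, ht, map_add, Pi.add_apply]

theorem coassoc_aux3 (hR : Function.Injective (algebraMap R Ω)) (hH : IsHopfOrder H)
    (z : M × M × M) (t : H ⊗[R] H) :
    ext H.val (ext H.val H.val)
      (Algebra.TensorProduct.map (AlgHom.id R H) (comulHom hR hH) t) z =
      ext H.val H.val t (z.1, z.2.1 + z.2.2) := by
  induction t using TensorProduct.induction_on with
  | zero => simp
  | tmul c d =>
    rw [Algebra.TensorProduct.map_tmul, ext_tmul, ext_comulHom]
    simp
  | add s t hs ht =>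
    rw [map_add, map_add, Pi.add_apply, hs, ht, map_add, Pi.add_apply]

theorem coassoc (hR : Function.Injective (algebraMap R Ω)) (hH : IsHopfOrder H) :
    (Algebra.TensorProduct.assoc R R R H H H).toAlgHom.comp
      ((Algebra.TensorProduct.map (comulHom hR hH) (.id R H)).comp (comulHom hR hH))
      = (Algebra.TensorProduct.map (.id R H) (comulHom hR hH)).comp (comulHom hR hH) := by
  have hinj : Function.Injective (ext H.val (ext H.val H.val)) :=
    ((hH.good hR).ext ((hH.good hR).ext (hH.good hR))).injective hR
  refine AlgHom.ext fun h => hinj (funext fun z => ?_)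
  have h1 := coassoc_aux2 hR hH z (comulHom hR hH h)
  have h2 := coassoc_aux3 hR hH z (comulHom hR hH h)
  rw [ext_comulHom] at h1 h2
  rw [← add_assoc] at h2
  exact h1.trans h2.symm

theorem rTensor (hR : Function.Injective (algebraMap R Ω)) (hH : IsHopfOrder H) :
    (Algebra.TensorProduct.map (counitHom hR hH) (.id R H)).comp (comulHom hR hH)
      = (Algebra.TensorProduct.lid R H).symm := by
  refine AlgHom.ext fun h => (TensorProduct.lid R H).injective (Subtype.ext (funext fun x => ?_))
  have h1 : ∀ t : H ⊗[R] H, (TensorProduct.lid R H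
      (Algebra.TensorProduct.map (counitHom hR hH) (AlgHom.id R H) t) : M → Ω) x =
      ext H.val H.val t (0, x) := by
    intro t
    induction t using TensorProduct.induction_on with
    | zero => simp
    | tmul c d => simp [Algebra.smul_def, algebraMap_counitHom]
    | add s t hs ht =>
      rw [map_add, map_add, map_add, Pi.add_apply, ← hs, ← ht]
      rfl
  have h2 := h1 (comulHom hR hH h)
  rw [ext_comulHom] at h2
  simpa using h2

theorem lTensor (hR : Function.Injective (algebraMap R Ω)) (hH : IsHopfOrder H) :
    (Algebra.TensorProduct.map (.id R H) (counitHom hR hH)).comp (comulHom hR hH)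
      = (Algebra.TensorProduct.rid R R H).symm := by
  refine AlgHom.ext fun h => (TensorProduct.rid R H).injective (Subtype.ext (funext fun x => ?_))
  have h1 : ∀ t : H ⊗[R] H, (TensorProduct.rid R H
      (Algebra.TensorProduct.map (AlgHom.id R H) (counitHom hR hH) t) : M → Ω) x =
      ext H.val H.val t (x, 0) := by
    intro t
    induction t using TensorProduct.induction_on with
    | zero => simp
    | tmul c d => simp [Algebra.smul_def, algebraMap_counitHom, mul_comm]
    | add s t hs ht =>
      rw [map_add, map_add, map_add, Pi.add_apply, ← hs, ← ht]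
      rfl
  have h2 := h1 (comulHom hR hH h)
  rw [ext_comulHom] at h2
  simpa using h2

end IsHopfOrder

end Fermat.Agent.HopfOrder
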