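import Fermat.Agent.HopfOrder.RatLoc

/-!
Closure properties of finite flat Galois modules: submodules, finite products, duals, quotients.
-/

set_option autoImplicit false
set_option linter.unusedSectionVars false

open GaloisRep

namespace Fermat.Agent.HopfOrder

section Sub

variable {R K Ω : Type} [CommRing R] [IsDomain R] [IsPrincipalIdealRing R] [Field K] [Field Ω]
  [Algebra R K] [IsFractionRing R K] [Algebra K Ω] [Algebra R Ω] [IsScalarTower R K Ω]
  [IsGalois K Ω]

/-- Restriction of Hopf orders. -/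
theorem isHopfOrder_map {M N : Type} [AddCommGroup M] [AddCommGroup N]
    [DistribMulAction (Ω ≃ₐ[K] Ω) M] [DistribMulAction (Ω ≃ₐ[K] Ω) N]
    (f : N →+ M) (hf : Function.Injective f) (heq : ∀ (σ : Ω ≃ₐ[K] Ω) x, f (σ • x) = σ • f x)
    {H : Subalgebra R (M → Ω)} (hH : IsHopfOrder H)
    (hequiv : ∀ h ∈ H, ∀ (σ : Ω ≃ₐ[K] Ω) (x : M), h (σ • x) = σ (h x)) :
    IsHopfOrder (H.map (pull R Ω f)) ∧
      ∀ h ∈ H.map (pull R Ω f), ∀ (σ : Ω ≃ₐ[K] Ω) (x : N), h (σ • x) = σ (h x) := by
  have hequiv' : ∀ h ∈ H.map (pull R Ω f), ∀ (σ : Ω ≃ₐ[K] Ω) (x : N),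
      h (σ • x) = σ (h x) := by
    rintro _ ⟨h, hh, rfl⟩ σ x
    change h (f (σ • x)) = σ (h (f x))
    rw [heq]
    exact hequiv h hh σ (f x)
  refine ⟨{ finite := ?_, indep := ?_, separates := ?_, comul := ?_, counit := ?_,
            antipode := ?_ }, hequiv'⟩
  · have := hH.finite
    have hsurj : Function.Surjective
        (((pull R Ω f).comp H.val).codRestrict (H.map (pull R Ω f))
          (fun h => ⟨h, h.2, rfl⟩)) := by
      rintro ⟨_, ⟨h, hh, rfl⟩⟩
      exact ⟨⟨h, hh⟩, rfl⟩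
    exact Module.Finite.of_surjective
      (((pull R Ω f).comp H.val).codRestrict (H.map (pull R Ω f))
          (fun h => ⟨h, h.2, rfl⟩)).toLinearMap hsurj
  · intro n v hv
    exact indep_of_equivariant (K := K) n _ hequiv' v hv
  · intro x y hxy
    obtain ⟨h, hh, hne⟩ := hH.separates (f x) (f y) (fun e => hxy (hf e))
    exact ⟨_, ⟨h, hh, rfl⟩, hne⟩
  · rintro _ ⟨h, hh, rfl⟩
    have h1 := hH.comul h hh
    have h2 : (fun z : N × N => (pull R Ω f) h (z.1 + z.2)) =
        (pull R Ω (fun z : N × N => (f z.1, f z.2))) (fun z : M × M => h (z.1 + z.2)) := by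
      funext z
      simp
    have h3 := Submodule.mem_map_of_mem
      (f := (pull R Ω (fun z : N × N => (f z.1, f z.2))).toLinearMap) h1
    rw [Submodule.map_span] at h3
    refine (h2 ▸ Submodule.span_mono ?_ h3 :)
    rintro _ ⟨φ, ⟨a, ha, b, hb, rfl⟩, rfl⟩
    exact ⟨_, ⟨a, ha, rfl⟩, _, ⟨b, hb, rfl⟩, rfl⟩
  · rintro _ ⟨h, hh, rfl⟩
    obtain ⟨r, hr⟩ := hH.counit h hh
    refine ⟨r, ?_⟩
    rw [← hr]
    change h (f 0) = h 0
    rw [map_zero]
  · rintro _ ⟨h, hh, rfl⟩
    refine ⟨_, hH.antipode h hh, ?_⟩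
    funext x
    change h (-(f x)) = h (f (-x))
    rw [map_neg]

end Sub

section Char

variable {R K Ω : Type} [CommRing R] [IsDomain R] [IsPrincipalIdealRing R] [Field K] [Field Ω]
  [Algebra R K] [IsFractionRing R K] [Algebra K Ω] [Algebra R Ω] [IsScalarTower R K Ω]
  [IsGalois K Ω]

/-- Characters are integral combinations of functions in a Hopf order. -/
theorem exists_integral_expansion {M : Type} [AddCommGroup M] [Finite M]
    (hR : Function.Injective (algebraMap R Ω))
    {H : Subalgebra R (M → Ω)} (hH : IsHopfOrder H) {χ : M → Ω}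
    (hχ : ∀ x y, χ (x + y) = χ x * χ y) (hχ0 : χ 0 ≠ 0) :
    ∃ (n : ℕ) (b : Fin n → H) (a : Fin n → Ω), (∀ i, IsIntegral R (a i)) ∧
      χ = ∑ i, a i • (b i : M → Ω) := by
  classical
  obtain ⟨n, b, b', hb⟩ := hH.toIsOrder.exists_basis hR
  let a : Fin n → Ω := fun i => b'.repr χ i
  have hexp : χ = ∑ i, a i • (b i : M → Ω) := by
    conv_lhs => rw [← b'.sum_repr χ]
    exact Finset.sum_congr rfl fun i _ => by rw [hb]
  -- uniqueness of double expansions
  have huniq : ∀ u v : Fin n → Fin n → Ω, (∀ x y, ∑ j, ∑ k, u j k * ((b j : M → Ω) x *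
      (b k : M → Ω) y) = ∑ j, ∑ k, v j k * ((b j : M → Ω) x * (b k : M → Ω) y)) → u = v := by
    intro u v h
    have h1 : ∀ y, ∀ j, ∑ k, (u j k - v j k) * (b k : M → Ω) y = 0 := by
      intro y
      have h2 : ∑ j, (∑ k, (u j k - v j k) * (b k : M → Ω) y) • b' j = 0 := by
        funext x
        have h3 := h x y
        rw [← sub_eq_zero, ← Finset.sum_sub_distrib] at h3
        simp only [Finset.sum_apply, Pi.smul_apply, smul_eq_mul, Pi.zero_apply, hb]
        rw [← h3]
        refine Finset.sum_congr rfl fun j _ => ?_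
        rw [← Finset.sum_sub_distrib, Finset.sum_mul]
        refine Finset.sum_congr rfl fun k _ => ?_
        ring
      exact Fintype.linearIndependent_iff.1 b'.linearIndependent _ h2
    funext j k
    have h2 : ∑ k, (u j k - v j k) • b' k = 0 := by
      funext y
      simp only [Finset.sum_apply, Pi.smul_apply, smul_eq_mul, Pi.zero_apply, hb]
      exact h1 y j
    exact sub_eq_zero.1 (Fintype.linearIndependent_iff.1 b'.linearIndependent _ h2 k)
  -- comultiplication
  have hcomul : ∀ h : H, ∃ γ : Fin n → Fin n → R, ∀ x y, (h : M → Ω) (x + y) =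
      ∑ j, ∑ k, algebraMap R Ω (γ j k) * ((b j : M → Ω) x * (b k : M → Ω) y) := by
    intro h
    have h1 := hH.comul h h.2
    have hexpH : ∀ (d : H) (y : M), (d : M → Ω) y =
        ∑ i, algebraMap R Ω (b.repr d i) * (b i : M → Ω) y := by
      intro d y
      conv_lhs => rw [← b.sum_repr d]
      rw [AddSubmonoidClass.coe_finsetSum, Finset.sum_apply]
      refine Finset.sum_congr rfl fun i _ => ?_
      rw [← Algebra.smul_def]
      rfl
    have key : ∀ φ ∈ Submodule.span R {φ : M × M → Ω | ∃ a ∈ H, ∃ b ∈ H,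
        φ = fun z => a z.1 * b z.2}, ∃ γ : Fin n → Fin n → R, ∀ x y, φ (x, y) =
        ∑ j, ∑ k, algebraMap R Ω (γ j k) * ((b j : M → Ω) x * (b k : M → Ω) y) := by
      intro φ hφ
      induction hφ using Submodule.span_induction with
      | mem φ hφ =>
        obtain ⟨c, hc, d, hd, rfl⟩ := hφ
        refine ⟨fun j k => b.repr ⟨c, hc⟩ j * b.repr ⟨d, hd⟩ k, fun x y => ?_⟩
        have e1 := hexpH ⟨c, hc⟩ x
        have e2 := hexpH ⟨d, hd⟩ y
        change c x * d y = _
        rw [show c x = _ from e1, show d y = _ from e2, Finset.sum_mul_sum]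
        refine Finset.sum_congr rfl fun j _ => Finset.sum_congr rfl fun k _ => ?_
        rw [map_mul]
        ring
      | zero => exact ⟨0, fun x y => by simp⟩
      | add φ ψ _ _ h1 h2 =>
        obtain ⟨γ, hγ⟩ := h1
        obtain ⟨δ, hδ⟩ := h2
        refine ⟨γ + δ, fun x y => ?_⟩
        rw [Pi.add_apply, hγ, hδ, ← Finset.sum_add_distrib]
        refine Finset.sum_congr rfl fun j _ => ?_
        rw [← Finset.sum_add_distrib]
        refine Finset.sum_congr rfl fun k _ => ?_
        rw [Pi.add_apply, Pi.add_apply, map_add]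
        ring
      | smul r φ _ h1 =>
        obtain ⟨γ, hγ⟩ := h1
        refine ⟨fun j k => r * γ j k, fun x y => ?_⟩
        rw [Pi.smul_apply, hγ, Algebra.smul_def, Finset.mul_sum]
        refine Finset.sum_congr rfl fun j _ => ?_
        rw [Finset.mul_sum]
        refine Finset.sum_congr rfl fun k _ => ?_
        rw [map_mul]
        ring
    obtain ⟨γ, hγ⟩ := key _ h1
    exact ⟨γ, hγ⟩
  choose γ hγ using fun i => hcomul (b i)
  have hmul : ∀ j k, a j * a k = ∑ i, algebraMap R Ω (γ i j k) * a i := by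
    intro j k
    refine congrFun (congrFun (huniq (fun j k => a j * a k)
      (fun j k => ∑ i, algebraMap R Ω (γ i j k) * a i) fun x y => ?_) j) k
    have h1 := hχ x y
    have h2 : ∀ z, χ z = ∑ i, a i * (b i : M → Ω) z := by
      intro z
      conv_lhs => rw [hexp]
      simp
    rw [h2 x, h2 y, Finset.sum_mul_sum, h2 (x + y)] at h1
    have h3 : ∑ j, ∑ k, a j * a k * ((b j : M → Ω) x * (b k : M → Ω) y) =
        ∑ j, ∑ k, a j * (b j : M → Ω) x * (a k * (b k : M → Ω) y) :=
      Finset.sum_congr rfl fun j _ => Finset.sum_congr rfl fun k _ => by ring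
    rw [h3, ← h1]
    simp only [hγ, Finset.mul_sum, Finset.sum_mul]
    rw [Finset.sum_comm]
    refine Finset.sum_congr rfl fun j _ => ?_
    rw [Finset.sum_comm]
    refine Finset.sum_congr rfl fun k _ => Finset.sum_congr rfl fun i _ => ?_
    ring
  refine ⟨n, b, a, fun j => ?_, hexp⟩
  -- integrality
  have hne : ∃ i, a i ≠ 0 := by
    by_contra hcon
    push Not at hcon
    apply hχ0
    rw [hexp]
    simp [hcon]
  obtain ⟨i₀, hi₀⟩ := hne
  refine isIntegral_of_smul_mem_submodule (M := Ω) (Submodule.span R (Set.range a)) ?_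
    (Submodule.fg_span (Set.finite_range a)) (a j) ?_
  · intro h0
    have h1 : a i₀ ∈ Submodule.span R (Set.range a) := Submodule.subset_span ⟨i₀, rfl⟩
    rw [h0, Submodule.mem_bot] at h1
    exact hi₀ h1
  · intro x hx
    induction hx using Submodule.span_induction with
    | mem x hx =>
      obtain ⟨k, rfl⟩ := hx
      rw [smul_eq_mul, hmul]
      refine Submodule.sum_mem _ fun i _ => ?_
      rw [← Algebra.smul_def]
      exact Submodule.smul_mem _ _ (Submodule.subset_span ⟨i, rfl⟩)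
    | zero => rw [smul_zero]; exact Submodule.zero_mem _
    | add x y _ _ hx hy => rw [smul_add]; exact Submodule.add_mem _ hx hy
    | smul r x _ hx =>
      rw [smul_comm]
      exact Submodule.smul_mem _ _ hx

end Char

section Pi

variable {R K Ω : Type} [CommRing R] [IsDomain R] [IsPrincipalIdealRing R] [Field K] [Field Ω]
  [Algebra R K] [IsFractionRing R K] [Algebra K Ω] [Algebra R Ω] [IsScalarTower R K Ω]
  [IsGalois K Ω]

theorem exists_isHopfOrder_pi {ι : Type} [Finite ι] {M : ι → Type} [∀ i, AddCommGroup (M i)]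
    [∀ i, DistribMulAction (Ω ≃ₐ[K] Ω) (M i)] (H : ∀ i, Subalgebra R (M i → Ω))
    (hH : ∀ i, IsHopfOrder (H i))
    (hequiv : ∀ i, ∀ h ∈ H i, ∀ (σ : Ω ≃ₐ[K] Ω) (x : M i), h (σ • x) = σ (h x)) :
    ∃ H : Subalgebra R ((∀ i, M i) → Ω), IsHopfOrder H ∧
      ∀ h ∈ H, ∀ (σ : Ω ≃ₐ[K] Ω) (x : ∀ i, M i), h (σ • x) = σ (h x) := by
  classical
  have := Fintype.ofFinite ι
  have hfg : ∀ i, ∃ t : Finset (M i → Ω),
      Algebra.adjoin R (t : Set (M i → Ω)) = H i := by
    intro i
    have h1 := (hH i).finite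
    have h2 : (H i).FG := by
      rw [← Subalgebra.fg_top]
      exact Algebra.FiniteType.out
    exact h2
  choose t ht using hfg
  have hint : ∀ i, ∀ h ∈ H i, IsIntegral R h := by
    intro i h hh
    have h1 := (hH i).finite
    have h2 : IsIntegral R (⟨h, hh⟩ : H i) := Algebra.IsIntegral.isIntegral _
    exact h2.map (H i).val
  let p : ∀ i, (M i → Ω) →ₐ[R] ((∀ i, M i) → Ω) :=
    fun i => pull R Ω (fun x : ∀ i, M i => x i)
  let s : Set ((∀ i, M i) → Ω) := ⋃ i, (p i) '' (t i : Set (M i → Ω))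
  have hsfin : s.Finite := Set.finite_iUnion fun i => (t i).finite_toSet.image _
  have hts : ∀ i, ∀ h ∈ t i, h ∈ H i := by
    intro i h hh
    rw [← ht i]
    exact Algebra.subset_adjoin hh
  have hs : ∀ h ∈ s, ∃ i, ∃ h' ∈ t i, p i h' = h := by
    intro h hh
    obtain ⟨i, h', hh', rfl⟩ := Set.mem_iUnion.1 hh
    exact ⟨i, h', hh', rfl⟩
  have hp : ∀ i, ∀ h ∈ H i, p i h ∈ Algebra.adjoin R s := by
    intro i h hh
    rw [← ht i] at hh
    have h1 : p i h ∈ (Algebra.adjoin R (t i : Set (M i → Ω))).map (p i) := ⟨h, hh, rfl⟩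
    rw [AlgHom.map_adjoin] at h1
    refine Algebra.adjoin_mono ?_ h1
    intro y hy
    exact Set.mem_iUnion.2 ⟨i, hy⟩
  have hequiv' : ∀ h ∈ Algebra.adjoin R s, ∀ (σ : Ω ≃ₐ[K] Ω) (x : ∀ i, M i),
      h (σ • x) = σ (h x) := by
    intro h hh
    induction hh using Algebra.adjoin_induction with
    | mem h hh =>
      obtain ⟨i, h, hh', rfl⟩ := hs h hh
      intro σ x
      change h (σ • x i) = σ (h (x i))
      exact hequiv i h (hts i h hh') σ (x i)
    | algebraMap r =>
      intro σ x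
      rw [Pi.algebraMap_apply, Pi.algebraMap_apply, IsScalarTower.algebraMap_apply R K Ω,
        AlgEquiv.commutes]
    | add a b _ _ ha hb =>
      intro σ x
      rw [Pi.add_apply, Pi.add_apply, ha, hb, map_add]
    | mul a b _ _ ha hb =>
      intro σ x
      rw [Pi.mul_apply, Pi.mul_apply, ha, hb, map_mul]
  refine ⟨Algebra.adjoin R s,
    { finite := ?_, indep := ?_, separates := ?_, comul := ?_, counit := ?_, antipode := ?_ },
    hequiv'⟩
  · have h1 := fg_adjoin_of_finite (R := R) hsfin (by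
      intro h hh
      obtain ⟨i, h, hh', rfl⟩ := hs h hh
      exact (hint i h (hts i h hh')).map (p i))
    exact Module.Finite.iff_fg.2 h1
  · intro m v hv
    exact indep_of_equivariant (K := K) m _ hequiv' v hv
  · intro x y hxy
    obtain ⟨i, hi⟩ := Function.ne_iff.1 hxy
    obtain ⟨h, hh, hne⟩ := (hH i).separates _ _ hi
    exact ⟨p i h, hp i h hh, hne⟩
  · refine comul_mem_of_adjoin s ?_
    intro h hh
    obtain ⟨i, h, hh', rfl⟩ := hs h hh
    have h1 := (hH i).comul h (hts i h hh')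
    have h3 := Submodule.mem_map_of_mem
      (f := (pull R Ω (fun z : (∀ i, M i) × (∀ i, M i) => (z.1 i, z.2 i))).toLinearMap) h1
    rw [Submodule.map_span] at h3
    refine Submodule.span_mono ?_ h3
    rintro _ ⟨φ, ⟨a, ha, b, hb, rfl⟩, rfl⟩
    exact ⟨_, hp i a ha, _, hp i b hb, rfl⟩
  · intro h hh
    have hle : Algebra.adjoin R s ≤
        (⊥ : Subalgebra R Ω).comap
          (Pi.evalAlgHom R (fun _ : (∀ i, M i) => Ω) 0) := by
      rw [Algebra.adjoin_le_iff]
      intro h hh
      obtain ⟨i, h, hh', rfl⟩ := hs h hh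
      obtain ⟨r, hr⟩ := (hH i).counit h (hts i h hh')
      exact Algebra.mem_bot.2 ⟨r, hr.symm⟩
    obtain ⟨r, hr⟩ := Algebra.mem_bot.1 (hle hh)
    exact ⟨r, hr.symm⟩
  · intro h hh
    have hle : Algebra.adjoin R s ≤ (Algebra.adjoin R s).comap
        (pull R Ω fun x : (∀ i, M i) => -x) := by
      rw [Algebra.adjoin_le_iff]
      intro h hh
      obtain ⟨i, h, hh', rfl⟩ := hs h hh
      exact hp i _ ((hH i).antipode h (hts i h hh'))
    exact hle hh

end Pi

end Fermat.Agent.HopfOrder
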