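import Mathlib.RingTheory.HopfAlgebra.Basic
import Mathlib.RingTheory.Bialgebra.Convolution
import Mathlib.RingTheory.Flat.Basic
import Mathlib.LinearAlgebra.TensorProduct.Basis
import Mathlib.RingTheory.TensorProduct.Maps

/-!
# Hopf algebras of functions

A subalgebra `H` of `M → Ω` over a ring `R`, `M` a finite commutative additive group, which has an
`R`-basis that is an `Ω`-basis of `M → Ω`, and is stable under `h ↦ h(x+y)`, `h ↦ h(-x)`,
`h ↦ h(0)`, is a Hopf algebra whose `Ω`-points are `M`.
-/

set_option autoImplicit false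

namespace Fermat.Agent.HopfOrder

open TensorProduct

section Good

variable {R Ω : Type*} [CommRing R] [Field Ω] [Algebra R Ω]

/-- `α : E → (X → Ω)` sends some `R`-basis to an `Ω`-linearly independent family. -/
def Good {E X : Type*} [AddCommGroup E] [Module R E] (α : E →ₗ[R] (X → Ω)) : Prop :=
  ∃ (ι : Type) (_ : Fintype ι) (b : Module.Basis ι R E), LinearIndependent Ω (fun i => α (b i))

theorem Good.injective {E X : Type*} [AddCommGroup E] [Module R E] {α : E →ₗ[R] (X → Ω)}
    (h : Good α) (hR : Function.Injective (algebraMap R Ω)) : Function.Injective α := by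
  obtain ⟨ι, _, b, hb⟩ := h
  rw [injective_iff_map_eq_zero]
  intro e he
  rw [← b.sum_repr e, map_sum] at he
  have h1 : ∀ i, algebraMap R Ω (b.repr e i) = 0 := by
    apply Fintype.linearIndependent_iff.mp hb (fun i => algebraMap R Ω (b.repr e i))
    rw [← he]
    refine Finset.sum_congr rfl fun i _ => ?_
    rw [map_smul]
    funext x
    simp [Algebra.smul_def]
  rw [← b.sum_repr e]
  refine Finset.sum_eq_zero fun i _ => ?_
  rw [hR ((h1 i).trans (map_zero _).symm), zero_smul]

/-- The external product of two maps to functions. -/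
noncomputable def prodMap {E F X Y : Type*} [AddCommGroup E] [Module R E] [AddCommGroup F]
    [Module R F] (α : E →ₗ[R] (X → Ω)) (β : F →ₗ[R] (Y → Ω)) :
    E ⊗[R] F →ₗ[R] (X × Y → Ω) :=
  TensorProduct.lift (LinearMap.mk₂ R (fun e f => fun p => α e p.1 * β f p.2)
    (fun e e' f => by funext p; simp [add_mul])
    (fun c e f => by funext p; simp)
    (fun e f f' => by funext p; simp [mul_add])
    (fun c e f => by funext p; simp))

@[simp]
theorem prodMap_tmul {E F X Y : Type*} [AddCommGroup E] [Module R E] [AddCommGroup F]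
    [Module R F] (α : E →ₗ[R] (X → Ω)) (β : F →ₗ[R] (Y → Ω)) (e : E) (f : F) (p : X × Y) :
    prodMap α β (e ⊗ₜ f) p = α e p.1 * β f p.2 := rfl

theorem linearIndependent_prod {ι κ X Y : Type*} [Fintype ι] [Fintype κ] {a : ι → X → Ω}
    {b : κ → Y → Ω} (ha : LinearIndependent Ω a) (hb : LinearIndependent Ω b) :
    LinearIndependent Ω (fun q : ι × κ => fun p : X × Y => a q.1 p.1 * b q.2 p.2) := by
  rw [Fintype.linearIndependent_iff] at ha hb ⊢
  intro g hg
  have h1 : ∀ i, (∑ j, g (i, j) • b j) = 0 := by
    intro i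
    funext y
    have h2 := ha (fun i => ∑ j, g (i, j) * b j y) (by
      funext x
      have h3 := congrFun hg (x, y)
      simp only [Finset.sum_apply, Pi.smul_apply, smul_eq_mul, Pi.zero_apply] at h3 ⊢
      rw [Fintype.sum_prod_type] at h3
      rw [← h3]
      refine Finset.sum_congr rfl fun i _ => ?_
      rw [Finset.sum_mul]
      refine Finset.sum_congr rfl fun j _ => ?_
      ring) i
    simpa [Finset.sum_apply] using h2
  rintro ⟨i, j⟩
  exact hb (fun j => g (i, j)) (h1 i) j

theorem Good.prod {E F X Y : Type*} [AddCommGroup E] [Module R E] [AddCommGroup F]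
    [Module R F] {α : E →ₗ[R] (X → Ω)} {β : F →ₗ[R] (Y → Ω)} (hα : Good α) (hβ : Good β) :
    Good (prodMap α β) := by
  obtain ⟨ι, _, a, ha⟩ := hα
  obtain ⟨κ, _, b, hb⟩ := hβ
  refine ⟨ι × κ, inferInstance, a.tensorProduct b, ?_⟩
  convert linearIndependent_prod ha hb using 1
  funext q
  obtain ⟨i, j⟩ := q
  rw [Module.Basis.tensorProduct_apply]
  rfl

end Good

section Hopf

variable {R Ω M : Type} [CommRing R] [Field Ω] [Algebra R Ω] [AddCommGroup M]

/-- The data needed to put a Hopf algebra structure on a ring of functions. -/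
structure FnData (R Ω M : Type) [CommRing R] [Field Ω] [Algebra R Ω] [AddCommGroup M] where
  H : Subalgebra R (M → Ω)
  inj : Function.Injective (algebraMap R Ω)
  good : Good (H.val.toLinearMap)
  add_mem : ∀ h : H, ∃ t : H ⊗[R] H,
    prodMap H.val.toLinearMap H.val.toLinearMap t = fun p => (h : M → Ω) (p.1 + p.2)
  neg_mem : ∀ h : H, (fun m => (h : M → Ω) (-m)) ∈ H
  zero_mem : ∀ h : H, ∃ r : R, algebraMap R Ω r = (h : M → Ω) 0

namespace FnData

variable (D : FnData R Ω M)

/-- inclusion as a linear map -/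
noncomputable abbrev ev : D.H →ₗ[R] (M → Ω) := D.H.val.toLinearMap

/-- `h ↦ (p ↦ h (g p))` as an algebra hom -/
def pull {Y : Type} (g : Y → M) : D.H →ₐ[R] (Y → Ω) where
  toFun h := fun p => (h : M → Ω) (g p)
  map_one' := rfl
  map_mul' _ _ := rfl
  map_zero' := rfl
  map_add' _ _ := rfl
  commutes' _ := rfl

@[simp] theorem pull_apply {Y : Type} (g : Y → M) (h : D.H) (y : Y) :
    D.pull g h y = (h : M → Ω) (g y) := rfl

/-- the embedding of `H ⊗ H` into functions on `M × M` -/
noncomputable def mu2 : D.H ⊗[R] D.H →ₐ[R] (M × M → Ω) :=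
  Algebra.TensorProduct.lift (D.pull Prod.fst) (D.pull Prod.snd) (fun _ _ => Commute.all _ _)

@[simp] theorem mu2_tmul (a b : D.H) (p : M × M) :
    D.mu2 (a ⊗ₜ b) p = (a : M → Ω) p.1 * (b : M → Ω) p.2 := by
  simp [mu2, Algebra.TensorProduct.lift_tmul]

theorem mu2_eq (t : D.H ⊗[R] D.H) : D.mu2 t = prodMap D.ev D.ev t := by
  induction t with
  | zero => simp
  | tmul a b => funext p; rw [mu2_tmul]; rfl
  | add a b ha hb => rw [map_add, map_add, ha, hb]

theorem mu2_injective : Function.Injective D.mu2 := by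
  intro a b h
  rw [mu2_eq, mu2_eq] at h
  exact (D.good.prod D.good).injective D.inj h

/-- the embedding of `H ⊗ (H ⊗ H)` into functions on `M × (M × M)` -/
noncomputable def mu3 : D.H ⊗[R] (D.H ⊗[R] D.H) →ₗ[R] (M × (M × M) → Ω) :=
  prodMap D.ev (prodMap D.ev D.ev)

theorem mu3_injective : Function.Injective D.mu3 :=
  (D.good.prod (D.good.prod D.good)).injective D.inj

theorem mu3_tmul (a : D.H) (t : D.H ⊗[R] D.H) (m m' m'' : M) :
    D.mu3 (a ⊗ₜ t) (m, (m', m'')) = (a : M → Ω) m * D.mu2 t (m', m'') := by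
  rw [mu2_eq]; rfl

/-- addition -/
def del : D.H →ₐ[R] (M × M → Ω) := D.pull (fun p => p.1 + p.2)

theorem del_mem (h : D.H) : D.del h ∈ D.mu2.range := by
  obtain ⟨t, ht⟩ := D.add_mem h
  refine ⟨t, ?_⟩
  change D.mu2 t = _
  rw [mu2_eq]
  exact ht

/-- comultiplication -/
noncomputable def comul : D.H →ₐ[R] D.H ⊗[R] D.H :=
  ((AlgEquiv.ofInjective D.mu2 D.mu2_injective).symm : _ →ₐ[R] _).comp
    (D.del.codRestrict D.mu2.range D.del_mem)

@[simp] theorem mu2_comul (h : D.H) (m m' : M) : D.mu2 (D.comul h) (m, m') = (h : M → Ω) (m + m') := by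
  have h1 : (AlgEquiv.ofInjective D.mu2 D.mu2_injective) (D.comul h) =
      D.del.codRestrict D.mu2.range D.del_mem h := by
    simp [comul]
  have h2 := congrArg Subtype.val h1
  rw [AlgEquiv.ofInjective_apply] at h2
  rw [h2]
  rfl

/-- counit -/
noncomputable def counit : D.H →ₐ[R] R where
  toFun h := (D.zero_mem h).choose
  map_one' := D.inj (by rw [(D.zero_mem 1).choose_spec, map_one]; rfl)
  map_mul' a b := D.inj (by
    rw [(D.zero_mem (a * b)).choose_spec, map_mul, (D.zero_mem a).choose_spec,
      (D.zero_mem b).choose_spec]; rfl)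
  map_zero' := D.inj (by rw [(D.zero_mem 0).choose_spec, map_zero]; rfl)
  map_add' a b := D.inj (by
    rw [(D.zero_mem (a + b)).choose_spec, map_add, (D.zero_mem a).choose_spec,
      (D.zero_mem b).choose_spec]; rfl)
  commutes' r := D.inj (by
    rw [(D.zero_mem (algebraMap R D.H r)).choose_spec]; rfl)

@[simp] theorem algebraMap_counit (h : D.H) : algebraMap R Ω (D.counit h) = (h : M → Ω) 0 :=
  (D.zero_mem h).choose_spec

theorem mu3_assoc_tmul (u : D.H ⊗[R] D.H) (b : D.H) (m m' m'' : M) :
    D.mu3 (TensorProduct.assoc R D.H D.H D.H (u ⊗ₜ b)) (m, (m', m'')) =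
      D.mu2 u (m, m') * (b : M → Ω) m'' := by
  induction u with
  | zero => simp
  | tmul a c =>
    rw [TensorProduct.assoc_tmul, mu3_tmul, mu2_tmul, mu2_tmul, mul_assoc]
  | add x y hx hy =>
    rw [TensorProduct.add_tmul, map_add, map_add, map_add, Pi.add_apply, hx, hy, Pi.add_apply,
      add_mul]

theorem mu3_left (t : D.H ⊗[R] D.H) (m m' m'' : M) :
    D.mu3 (Algebra.TensorProduct.assoc R R R D.H D.H D.H
      (Algebra.TensorProduct.map D.comul (AlgHom.id R D.H) t)) (m, (m', m'')) =
      D.mu2 t (m + m', m'') := by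
  induction t with
  | zero => simp
  | tmul a b =>
    rw [Algebra.TensorProduct.map_tmul]
    have := D.mu3_assoc_tmul (D.comul a) b m m' m''
    rw [mu2_comul] at this
    rw [mu2_tmul]
    exact this
  | add x y hx hy =>
    rw [map_add, map_add, map_add, Pi.add_apply, hx, hy, map_add, Pi.add_apply]

theorem mu3_right (t : D.H ⊗[R] D.H) (m m' m'' : M) :
    D.mu3 (Algebra.TensorProduct.map (AlgHom.id R D.H) D.comul t) (m, (m', m'')) =
      D.mu2 t (m, m' + m'') := by
  induction t with
  | zero => simp
  | tmul a b =>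
    rw [Algebra.TensorProduct.map_tmul, mu3_tmul, mu2_comul, mu2_tmul]
    rfl
  | add x y hx hy =>
    rw [map_add, map_add, Pi.add_apply, hx, hy, map_add, Pi.add_apply]

theorem lid_map (t : D.H ⊗[R] D.H) (m : M) :
    ((Algebra.TensorProduct.lid R D.H
      (Algebra.TensorProduct.map D.counit (AlgHom.id R D.H) t) : D.H) : M → Ω) m =
      D.mu2 t (0, m) := by
  induction t with
  | zero => simp
  | tmul a b =>
    rw [Algebra.TensorProduct.map_tmul, Algebra.TensorProduct.lid_tmul, mu2_tmul]
    change (D.counit a • (b : M → Ω)) m = _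
    rw [Pi.smul_apply, Algebra.smul_def, algebraMap_counit]
  | add x y hx hy =>
    rw [map_add, map_add, map_add, Pi.add_apply, ← hx, ← hy]
    rfl

theorem rid_map (t : D.H ⊗[R] D.H) (m : M) :
    ((Algebra.TensorProduct.rid R R D.H
      (Algebra.TensorProduct.map (AlgHom.id R D.H) D.counit t) : D.H) : M → Ω) m =
      D.mu2 t (m, 0) := by
  induction t with
  | zero => simp
  | tmul a b =>
    rw [Algebra.TensorProduct.map_tmul, Algebra.TensorProduct.rid_tmul, mu2_tmul]
    change (D.counit b • (a : M → Ω)) m = _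
    rw [Pi.smul_apply, Algebra.smul_def, algebraMap_counit, mul_comm]
  | add x y hx hy =>
    rw [map_add, map_add, map_add, Pi.add_apply, ← hx, ← hy]
    rfl

/-- the bialgebra structure -/
noncomputable abbrev bialgebra : Bialgebra R D.H :=
  Bialgebra.ofAlgHom D.comul D.counit
    (by
      apply AlgHom.ext
      intro h
      apply D.mu3_injective
      funext ⟨m, m', m''⟩
      refine (D.mu3_left (D.comul h) m m' m'').trans ?_
      refine Eq.trans ?_ (D.mu3_right (D.comul h) m m' m'').symm
      rw [mu2_comul, mu2_comul, add_assoc])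
    (by
      apply AlgHom.ext
      intro h
      apply (Algebra.TensorProduct.lid R D.H).injective
      apply Subtype.ext
      funext m
      refine (D.lid_map (D.comul h) m).trans ?_
      rw [mu2_comul, zero_add]
      simp)
    (by
      apply AlgHom.ext
      intro h
      apply (Algebra.TensorProduct.rid R R D.H).injective
      apply Subtype.ext
      funext m
      refine (D.rid_map (D.comul h) m).trans ?_
      rw [mu2_comul, add_zero]
      simp)

/-- antipode -/
def antip : D.H →ₗ[R] D.H where
  toFun h := ⟨fun m => (h : M → Ω) (-m), D.neg_mem h⟩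
  map_add' _ _ := rfl
  map_smul' _ _ := rfl

theorem mul_left (t : D.H ⊗[R] D.H) (m : M) :
    ((LinearMap.mul' R D.H (D.antip.rTensor D.H t) : D.H) : M → Ω) m = D.mu2 t (-m, m) := by
  induction t with
  | zero => simp
  | tmul a b => rw [LinearMap.rTensor_tmul, LinearMap.mul'_apply, mu2_tmul]; rfl
  | add x y hx hy =>
    rw [map_add, map_add, map_add, Pi.add_apply, ← hx, ← hy]
    rfl

theorem mul_right (t : D.H ⊗[R] D.H) (m : M) :
    ((LinearMap.mul' R D.H (D.antip.lTensor D.H t) : D.H) : M → Ω) m = D.mu2 t (m, -m) := by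
  induction t with
  | zero => simp
  | tmul a b => rw [LinearMap.lTensor_tmul, LinearMap.mul'_apply, mu2_tmul]; rfl
  | add x y hx hy =>
    rw [map_add, map_add, map_add, Pi.add_apply, ← hx, ← hy]
    rfl

/-- the Hopf algebra structure -/
noncomputable abbrev hopf : HopfAlgebra R D.H :=
  { D.bialgebra with
    antipode := D.antip
    mul_antipode_rTensor_comul := by
      apply LinearMap.ext
      intro h
      apply Subtype.ext
      funext m
      refine (D.mul_left (D.comul h) m).trans ?_
      rw [mu2_comul, neg_add_cancel]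
      exact (D.algebraMap_counit h).symm
    mul_antipode_lTensor_comul := by
      apply LinearMap.ext
      intro h
      apply Subtype.ext
      funext m
      refine (D.mul_right (D.comul h) m).trans ?_
      rw [mu2_comul, add_neg_cancel]
      exact (D.algebraMap_counit h).symm }

theorem mu2_comm (t : D.H ⊗[R] D.H) (m m' : M) :
    D.mu2 (TensorProduct.comm R D.H D.H t) (m, m') = D.mu2 t (m', m) := by
  induction t with
  | zero => simp
  | tmul a b => rw [TensorProduct.comm_tmul, mu2_tmul, mu2_tmul, mul_comm]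
  | add x y hx hy => rw [map_add, map_add, map_add, Pi.add_apply, Pi.add_apply, hx, hy]

theorem isCocomm : letI := D.hopf; Coalgebra.IsCocomm R D.H := by
  letI := D.hopf
  refine ⟨?_⟩
  apply LinearMap.ext
  intro h
  apply D.mu2_injective
  funext ⟨m, m'⟩
  refine (D.mu2_comm (D.comul h) m m').trans ?_
  change D.mu2 (D.comul h) (m', m) = D.mu2 (D.comul h) (m, m')
  rw [mu2_comul, mu2_comul, add_comm]

/-- evaluation at a point -/
def evalAt (m : M) : D.H →ₐ[R] Ω where
  toFun h := (h : M → Ω) m
  map_one' := rfl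
  map_mul' _ _ := rfl
  map_zero' := rfl
  map_add' _ _ := rfl
  commutes' _ := rfl

@[simp] theorem evalAt_apply (m : M) (h : D.H) : D.evalAt m h = (h : M → Ω) m := rfl

theorem evalAt_mul (m m' : M) : letI := D.hopf
    (WithConv.toConv (D.evalAt m) * WithConv.toConv (D.evalAt m') : WithConv (D.H →ₐ[R] Ω)) =
      WithConv.toConv (D.evalAt (m + m')) := by
  letI := D.hopf
  apply WithConv.ofConv_injective
  apply AlgHom.ext
  intro h
  have h1 := AlgHom.convMul_apply (WithConv.toConv (D.evalAt m)) (WithConv.toConv (D.evalAt m')) h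
  refine h1.trans ?_
  change Algebra.TensorProduct.lift (D.evalAt m) (D.evalAt m') _ (D.comul h) = (h : M → Ω) (m + m')
  rw [← D.mu2_comul]
  generalize D.comul h = t
  induction t with
  | zero => simp
  | tmul a b => rw [Algebra.TensorProduct.lift_tmul, mu2_tmul]; rfl
  | add x y hx hy => rw [map_add, map_add, Pi.add_apply, hx, hy]

end FnData

end Hopf

end Fermat.Agent.HopfOrder
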