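import Fermat.Agent.HopfOrder.Basic

/-!
The Hopf algebra attached to a Hopf order of functions, and its points.
-/

set_option autoImplicit false
set_option linter.unusedSectionVars false
set_option linter.style.haveILetI false

open scoped TensorProduct

namespace Fermat.Agent.HopfOrder

namespace IsHopfOrder

variable {R Ω M : Type} [CommRing R] [IsDomain R] [IsPrincipalIdealRing R] [Field Ω] [Algebra R Ω]
  [AddCommGroup M] {H : Subalgebra R (M → Ω)}

/-- The bialgebra structure. -/
noncomputable abbrev bialgebra (hR : Function.Injective (algebraMap R Ω)) (hH : IsHopfOrder H) :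
    Bialgebra R H :=
  Bialgebra.ofAlgHom (comulHom hR hH) (counitHom hR hH) (coassoc hR hH) (rTensor hR hH)
    (lTensor hR hH)

theorem antipode_left (hR : Function.Injective (algebraMap R Ω)) (hH : IsHopfOrder H) :
    ((Algebra.TensorProduct.lift (antipodeHom hH) (.id R H) fun _ ↦ Commute.all _).comp
        (comulHom hR hH)) = (Algebra.ofId R H).comp (counitHom hR hH) := by
  refine AlgHom.ext fun h => Subtype.ext (funext fun x => ?_)
  have h1 : ∀ t : H ⊗[R] H,
      ((Algebra.TensorProduct.lift (antipodeHom hH) (.id R H) fun _ ↦ Commute.all _) t : M → Ω) x =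
      ext H.val H.val t (-x, x) := by
    intro t
    induction t using TensorProduct.induction_on with
    | zero => simp
    | tmul c d =>
      have h3 := Algebra.TensorProduct.lift_tmul (antipodeHom hH) (AlgHom.id R H)
        (fun _ _ => Commute.all _ _) c d
      exact (congrArg (fun u : H => (u : M → Ω) x) h3).trans (by rw [ext_tmul]; rfl)
    | add s t hs ht =>
      rw [map_add, map_add, Pi.add_apply, ← hs, ← ht]
      rfl
  have h2 := h1 (comulHom hR hH h)
  rw [ext_comulHom, neg_add_cancel] at h2
  refine h2.trans ?_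
  exact (algebraMap_counitHom hR hH h).symm

theorem antipode_right (hR : Function.Injective (algebraMap R Ω)) (hH : IsHopfOrder H) :
    ((Algebra.TensorProduct.lift (.id R H) (antipodeHom hH) fun _ _ ↦ Commute.all _ _).comp
        (comulHom hR hH)) = (Algebra.ofId R H).comp (counitHom hR hH) := by
  refine AlgHom.ext fun h => Subtype.ext (funext fun x => ?_)
  have h1 : ∀ t : H ⊗[R] H,
      ((Algebra.TensorProduct.lift (.id R H) (antipodeHom hH) fun _ _ ↦ Commute.all _ _) t :
        M → Ω) x = ext H.val H.val t (x, -x) := by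
    intro t
    induction t using TensorProduct.induction_on with
    | zero => simp
    | tmul c d => simp
    | add s t hs ht =>
      rw [map_add, map_add, Pi.add_apply, ← hs, ← ht]
      rfl
  have h2 := h1 (comulHom hR hH h)
  rw [ext_comulHom, add_neg_cancel] at h2
  refine h2.trans ?_
  exact (algebraMap_counitHom hR hH h).symm

/-- The Hopf algebra structure. -/
noncomputable abbrev hopfAlgebra (hR : Function.Injective (algebraMap R Ω)) (hH : IsHopfOrder H) :
    HopfAlgebra R H :=
  letI := bialgebra hR hH
  HopfAlgebra.ofAlgHom (antipodeHom hH) (antipode_left hR hH) (antipode_right hR hH)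

theorem comul_comm (hR : Function.Injective (algebraMap R Ω)) (hH : IsHopfOrder H) (h : H) :
    TensorProduct.comm R H H (comulHom hR hH h) = comulHom hR hH h := by
  have hinj : Function.Injective (ext H.val H.val) :=
    ((hH.good hR).ext (hH.good hR)).injective hR
  refine hinj (funext fun z => ?_)
  have h1 : ∀ t : H ⊗[R] H, ext H.val H.val (TensorProduct.comm R H H t) z =
      ext H.val H.val t (z.2, z.1) := by
    intro t
    induction t using TensorProduct.induction_on with
    | zero => simp
    | tmul c d => simp [mul_comm]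
    | add s t hs ht =>
      rw [map_add, map_add, Pi.add_apply, hs, ht, map_add, Pi.add_apply]
  rw [h1, ext_comulHom, ext_comulHom, add_comm]

theorem isCocomm (hR : Function.Injective (algebraMap R Ω)) (hH : IsHopfOrder H) :
    letI := hopfAlgebra hR hH
    Coalgebra.IsCocomm R H := by
  letI := hopfAlgebra hR hH
  refine ⟨?_⟩
  refine LinearMap.ext fun h => ?_
  exact comul_comm hR hH h

end IsHopfOrder

namespace IsOrder

variable {R Ω M : Type} [CommRing R] [IsDomain R] [IsPrincipalIdealRing R] [Field Ω] [Algebra R Ω]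
  {H : Subalgebra R (M → Ω)} [Finite M]

theorem single_mem_of_separates (H : Subalgebra R (M → Ω))
    (hsep : ∀ x y : M, x ≠ y → ∃ h ∈ H, h x ≠ h y) (x : M) :
    (fun y => by classical exact if y = x then (1 : Ω) else 0) ∈
      Submodule.span Ω (H : Set (M → Ω)) := by
  classical
  have := Fintype.ofFinite M
  have hmul : ∀ a ∈ Submodule.span Ω (H : Set (M → Ω)), ∀ b ∈ Submodule.span Ω (H : Set (M → Ω)),
      a * b ∈ Submodule.span Ω (H : Set (M → Ω)) := by
    intro a ha b hb
    have h1 := Submodule.mul_mem_mul ha hb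
    rw [Submodule.span_mul_span] at h1
    refine Submodule.span_mono ?_ h1
    rintro c ⟨u, hu, v, hv, rfl⟩
    exact H.mul_mem hu hv
  have hone : (1 : M → Ω) ∈ Submodule.span Ω (H : Set (M → Ω)) := Submodule.subset_span H.one_mem
  have hex : ∀ y : M, ∃ h ∈ Submodule.span Ω (H : Set (M → Ω)), h x = 1 ∧ (y ≠ x → h y = 0) := by
    intro y
    by_cases hy : y = x
    · exact ⟨1, hone, rfl, fun h => absurd hy h⟩
    · obtain ⟨h, hh, hne⟩ := hsep x y (Ne.symm hy)
      refine ⟨(h x - h y)⁻¹ • (h - h y • 1), ?_, ?_, fun _ => ?_⟩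
      · exact Submodule.smul_mem _ _ (Submodule.sub_mem _ (Submodule.subset_span hh)
          (Submodule.smul_mem _ _ hone))
      · simp only [Pi.smul_apply, Pi.sub_apply, Pi.one_apply, smul_eq_mul, mul_one]
        exact inv_mul_cancel₀ (sub_ne_zero.2 hne)
      · simp
  choose h hmem hx hy using hex
  have hprod : ∀ s : Finset M, ∏ y ∈ s, h y ∈ Submodule.span Ω (H : Set (M → Ω)) := by
    intro s
    induction s using Finset.induction_on with
    | empty => simpa using hone
    | insert a s ha ih =>
      rw [Finset.prod_insert ha]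
      exact hmul _ (hmem a) _ ih
  have heq : (fun y => if y = x then (1 : Ω) else 0) = ∏ y, h y := by
    funext z
    rw [Finset.prod_apply]
    split_ifs with hz
    · subst hz
      rw [Finset.prod_eq_one]
      intro y _
      exact hx y
    · symm
      exact Finset.prod_eq_zero (Finset.mem_univ z) (hy z hz)
  rw [heq]
  exact hprod _

theorem span_eq_top_of_separates (H : Subalgebra R (M → Ω))
    (hsep : ∀ x y : M, x ≠ y → ∃ h ∈ H, h x ≠ h y) :
    Submodule.span Ω (H : Set (M → Ω)) = ⊤ := by
  classical
  have := Fintype.ofFinite M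
  rw [eq_top_iff]
  intro φ _
  have h1 : φ = ∑ x, φ x • (fun y => if y = x then (1 : Ω) else 0) := by
    funext y
    simp
  rw [h1]
  exact Submodule.sum_mem _ fun x _ => Submodule.smul_mem _ _ (single_mem_of_separates H hsep x)

theorem span_eq_top (hH : IsOrder H) : Submodule.span Ω (H : Set (M → Ω)) = ⊤ :=
  span_eq_top_of_separates H hH.separates

theorem exists_basis (hR : Function.Injective (algebraMap R Ω)) (hH : IsOrder H) :
    ∃ (n : ℕ) (b : Module.Basis (Fin n) R H) (b' : Module.Basis (Fin n) Ω (M → Ω)),
      ∀ i, b' i = (b i : M → Ω) := by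
  have := hH.finite
  have h0 : IsDomain R := inferInstance
  have h1 : Module.IsTorsionFree R Ω := by
    rw [Module.isTorsionFree_iff_algebraMap_injective]
    exact hR
  have h2 : Module.IsTorsionFree R H := inferInstance
  have h3 : Module.Free R H := inferInstance
  let b := Module.finBasis R H
  have hb := hH.indep _ b b.linearIndependent
  have hspan : ⊤ ≤ Submodule.span Ω (Set.range fun i => (b i : M → Ω)) := by
    rw [← hH.span_eq_top, Submodule.span_le]
    intro h hh
    have h4 : ((⟨h, hh⟩ : H) : M → Ω) = ∑ i, algebraMap R Ω (b.repr ⟨h, hh⟩ i) • (b i : M → Ω) := by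
      conv_lhs => rw [← b.sum_repr ⟨h, hh⟩]
      rw [AddSubmonoidClass.coe_finsetSum]
      refine Finset.sum_congr rfl fun i _ => ?_
      rw [algebraMap_smul]
      rfl
    change ((⟨h, hh⟩ : H) : M → Ω) ∈ _
    rw [h4]
    exact Submodule.sum_mem _ fun i _ => Submodule.smul_mem _ _ (Submodule.subset_span ⟨i, rfl⟩)
  exact ⟨_, b, Module.Basis.mk hb hspan, fun i => Module.Basis.mk_apply hb hspan i⟩

/-- Algebra homomorphisms to `Ω` are evaluations. -/
theorem exists_eval (hR : Function.Injective (algebraMap R Ω)) (hH : IsOrder H)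
    (f : H →ₐ[R] Ω) : ∃ x : M, ∀ h : H, f h = (h : M → Ω) x := by
  classical
  have := Fintype.ofFinite M
  obtain ⟨n, b, b', hb⟩ := hH.exists_basis hR
  let F : (M → Ω) →ₗ[Ω] Ω := b'.constr Ω fun i => f (b i)
  have hF : ∀ h : H, F h = f h := by
    intro h
    have h4 : (h : M → Ω) = ∑ i, algebraMap R Ω (b.repr h i) • (b i : M → Ω) := by
      conv_lhs => rw [← b.sum_repr h]
      rw [AddSubmonoidClass.coe_finsetSum]
      refine Finset.sum_congr rfl fun i _ => ?_
      rw [algebraMap_smul]
      rfl
    rw [h4, map_sum]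
    conv_rhs => rw [← b.sum_repr h, map_sum]
    refine Finset.sum_congr rfl fun i _ => ?_
    rw [map_smul, map_smul, ← hb, Module.Basis.constr_basis, algebraMap_smul]
  have hmul : ∀ u v : M → Ω, F (u * v) = F u * F v := by
    intro u v
    have key : ∀ i j, F (b' i * b' j) = F (b' i) * F (b' j) := by
      intro i j
      rw [hb, hb, hF, hF]
      have h5 := hF (b i * b j)
      rw [map_mul] at h5
      exact h5
    conv_lhs => rw [← b'.sum_repr u, ← b'.sum_repr v, Finset.sum_mul_sum]
    conv_rhs => rw [← b'.sum_repr u, ← b'.sum_repr v]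
    rw [map_sum, map_sum, map_sum, Finset.sum_mul_sum]
    refine Finset.sum_congr rfl fun i _ => ?_
    rw [map_sum]
    refine Finset.sum_congr rfl fun j _ => ?_
    rw [smul_mul_smul_comm, map_smul, map_smul, map_smul, key]
    simp only [smul_eq_mul]
    ring
  have hone : F 1 = 1 := by
    have h5 := hF 1
    rw [map_one] at h5
    exact h5
  let δ : M → (M → Ω) := fun x y => if y = x then 1 else 0
  have hsum : ∑ x, F (δ x) = 1 := by
    rw [← map_sum]
    convert hone
    funext y
    simp [δ]
  obtain ⟨x, hx⟩ : ∃ x, F (δ x) ≠ 0 := by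
    by_contra hcon
    push Not at hcon
    simp [hcon] at hsum
  refine ⟨x, fun h => ?_⟩
  have h6 : (h : M → Ω) * δ x = (h : M → Ω) x • δ x := by
    funext y
    by_cases hy : y = x
    · subst hy
      simp [δ]
    · simp [δ, hy]
  have h7 := hmul h (δ x)
  rw [h6, map_smul, smul_eq_mul, hF] at h7
  exact (mul_right_cancel₀ hx h7).symm

/-- The points of a Hopf order. -/
noncomputable def points (hR : Function.Injective (algebraMap R Ω)) (hH : IsOrder H) :
    (H →ₐ[R] Ω) ≃ M where
  toFun f := (hH.exists_eval hR f).choose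
  invFun x := (Pi.evalAlgHom R (fun _ => Ω) x).comp H.val
  left_inv f := AlgHom.ext fun h => ((hH.exists_eval hR f).choose_spec h).symm
  right_inv x := by
    by_contra hne
    obtain ⟨h, hh, h1⟩ := hH.separates _ _ hne
    exact h1 ((hH.exists_eval hR
      ((Pi.evalAlgHom R (fun _ => Ω) x).comp H.val)).choose_spec ⟨h, hh⟩).symm

theorem points_spec (hR : Function.Injective (algebraMap R Ω)) (hH : IsOrder H)
    (f : H →ₐ[R] Ω) (h : H) : f h = (h : M → Ω) (hH.points hR f) :=
  (hH.exists_eval hR f).choose_spec h

theorem points_eq_iff (hR : Function.Injective (algebraMap R Ω)) (hH : IsOrder H)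
    (f : H →ₐ[R] Ω) (x : M) (hx : ∀ h : H, f h = (h : M → Ω) x) : hH.points hR f = x := by
  by_contra hne
  obtain ⟨h, hh, h1⟩ := hH.separates _ _ hne
  exact h1 ((hH.points_spec hR f ⟨h, hh⟩).symm.trans (hx ⟨h, hh⟩))

end IsOrder

/-- **Main theorem**: a Hopf order consisting of equivariant functions gives a finite flat
commutative cocommutative Hopf algebra with the given group of points. -/
theorem exists_hopfAlgebra {R Ω M Γ : Type} [CommRing R] [IsDomain R] [IsPrincipalIdealRing R]
    [Field Ω] [Algebra R Ω] [AddCommGroup M] [Finite M] (H : Subalgebra R (M → Ω))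
    (hR : Function.Injective (algebraMap R Ω)) (hH : IsHopfOrder H)
    (actΩ : Γ → Ω → Ω) (actM : Γ → M → M) (hequiv : ∀ h ∈ H, ∀ σ x, h (actM σ x) = actΩ σ (h x)) :
    ∃ (H : Type) (_ : CommRing H) (_ : HopfAlgebra R H),
      Module.Finite R H ∧ Module.Flat R H ∧ Coalgebra.IsCocomm R H ∧
      ∃ e : WithConv (H →ₐ[R] Ω) ≃ M,
        (∀ f g, e (f * g) = e f + e g) ∧
        ∀ (σ : Γ) (f g : WithConv (H →ₐ[R] Ω)),
          (∀ h : H, g h = actΩ σ (f h)) → e g = actM σ (e f) := by
  have hfin := hH.finite
  have h0 : IsDomain R := inferInstance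
  have h1 : Module.IsTorsionFree R Ω := by
    rw [Module.isTorsionFree_iff_algebraMap_injective]
    exact hR
  have h2 : Module.IsTorsionFree R H := inferInstance
  have h3 : Module.Free R H := inferInstance
  letI := hH.hopfAlgebra hR
  refine ⟨H, inferInstance, hH.hopfAlgebra hR, hfin, inferInstance, hH.isCocomm hR,
    (WithConv.equiv _).trans (hH.points hR), ?_, ?_⟩
  · intro f g
    refine hH.points_eq_iff hR _ _ fun h => ?_
    have h4 := AlgHom.convMul_apply f g h
    refine h4.trans ?_
    have h5 : ∀ t : H ⊗[R] H, Algebra.TensorProduct.lift f.ofConv g.ofConv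
        (fun _ _ ↦ .all ..) t = ext H.val H.val t
          (hH.points hR f.ofConv, hH.points hR g.ofConv) := by
      intro t
      induction t using TensorProduct.induction_on with
      | zero => simp
      | tmul c d =>
        simp only [Algebra.TensorProduct.lift_tmul, ext_tmul]
        rw [hH.points_spec hR f.ofConv, hH.points_spec hR g.ofConv]
        rfl
      | add s t hs ht =>
        rw [map_add, map_add, Pi.add_apply, hs, ht]
    exact (h5 _).trans (IsHopfOrder.ext_comulHom hR hH h _)
  · intro σ f g hfg
    refine hH.points_eq_iff hR _ _ fun h => ?_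
    rw [hequiv h h.2]
    refine (hfg h).trans ?_
    congr 1
    exact hH.points_spec hR f.ofConv h

end Fermat.Agent.HopfOrder
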