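import Fermat.Agent.HopfOrder.Equivariant
import Fermat.Agent.Frob.Center

/-!
Local-global principle for integral combinations of equivariant integral functions.
-/

set_option autoImplicit false
set_option linter.unusedSectionVars false

open Polynomial

namespace Fermat.Agent.HopfOrder

section Unit

/-- An element of a subalgebra annihilated by a polynomial with invertible constant coefficient is
invertible in the subalgebra. -/
theorem exists_inv_of_aeval_eq_zero {A B : Type*} [CommRing A] [CommRing B] [Algebra A B]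
    (S : Subalgebra A B) {φ : B} (hφ : φ ∈ S) (P : A[X]) (hP : aeval φ P = 0)
    (hc : IsUnit (P.coeff 0)) : ∃ ψ ∈ S, φ * ψ = 1 := by
  obtain ⟨c, hc⟩ := hc
  refine ⟨-((c⁻¹ : Aˣ) : A) • aeval φ P.divX, ?_, ?_⟩
  · refine S.smul_mem ?_ _
    have h1 : aeval φ P.divX = ((aeval (⟨φ, hφ⟩ : S) P.divX : S) : B) := by
      exact (Polynomial.aeval_subalgebra_coe P.divX S ⟨φ, hφ⟩).symm
    rw [h1]
    exact Subtype.property _
  · have h1 := congrArg (aeval φ) P.divX_mul_X_add
    rw [hP, map_add, map_mul, aeval_X, aeval_C, ← hc] at h1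
    have h2 : φ * aeval φ P.divX = -algebraMap A B c := by
      rw [mul_comm]
      exact eq_neg_of_add_eq_zero_left h1
    rw [Algebra.smul_def, mul_left_comm, h2, ← map_neg, ← map_mul]
    simp

end Unit

variable {R Ω : Type} [CommRing R] [IsDomain R] [IsPrincipalIdealRing R]
  [Field Ω] [Algebra R ℚ] [IsFractionRing R ℚ] [Algebra ℚ Ω] [Algebra R Ω] [IsScalarTower R ℚ Ω]
  [IsGalois ℚ Ω] {X : Type} [MulAction (Ω ≃ₐ[ℚ] Ω) X]

variable (R X) in
/-- The local version of the ring of integral combinations of equivariant integral functions. -/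
def locRing (A : ValuationSubring Ω) : Subalgebra A (X → Ω) :=
  Algebra.adjoin A (equivInt R ℚ Ω X : Set (X → Ω))

theorem mem_locRing_of_mem (A : ValuationSubring Ω) {φ : X → Ω} (h : φ ∈ equivInt R ℚ Ω X) :
    φ ∈ locRing R X A := Algebra.subset_adjoin h

theorem const_mem_locRing (A : ValuationSubring Ω) {a : Ω} (h : a ∈ A) :
    (fun _ => a) ∈ locRing R X A :=
  Subalgebra.algebraMap_mem (locRing R X A) (⟨a, h⟩ : A)

theorem locRing_toSubmodule (A : ValuationSubring Ω) :
    Subalgebra.toSubmodule (locRing R X A) =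
      Submodule.span A (equivInt R ℚ Ω X : Set (X → Ω)) := by
  unfold locRing
  rw [Algebra.adjoin_eq_span]
  congr 1
  exact Submonoid.closure_eq (equivInt R ℚ Ω X).toSubmonoid |> congrArg SetLike.coe

theorem isIntegral_mem (A : ValuationSubring Ω) (hA : ∀ r : R, algebraMap R Ω r ∈ A) {x : Ω}
    (hx : IsIntegral R x) : x ∈ A := by
  let _ : Algebra R A := ((algebraMap R Ω).codRestrict A.toSubring hA).toAlgebra
  have : IsScalarTower R A Ω := IsScalarTower.of_algebraMap_eq fun _ => rfl
  have h : IsIntegral A x := hx.tower_top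
  obtain ⟨y, hy⟩ := IsIntegrallyClosed.isIntegral_iff.mp h
  rw [← hy]
  exact y.2

theorem apply_mem_of_mem_locRing (A : ValuationSubring Ω) (hA : ∀ r : R, algebraMap R Ω r ∈ A)
    {φ : X → Ω} (h : φ ∈ locRing R X A) (x : X) : φ x ∈ A := by
  unfold locRing at h
  induction h using Algebra.adjoin_induction with
  | mem φ hφ => exact isIntegral_mem A hA (hφ.1 x)
  | algebraMap r => exact r.2
  | add a b _ _ ha hb => exact A.add_mem _ _ ha hb
  | mul a b _ _ ha hb => exact A.mul_mem _ _ ha hb

/-- Functions in the local ring with unit values are units. -/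
theorem inv_mem_locRing [Finite X] (A : ValuationSubring Ω)
    (hA : ∀ r : R, algebraMap R Ω r ∈ A) {φ : X → Ω} (h : φ ∈ locRing R X A)
    (h0 : ∀ x, φ x ≠ 0) (hinv : ∀ x, (φ x)⁻¹ ∈ A) :
    (fun x => (φ x)⁻¹) ∈ locRing R X A := by
  classical
  have := Fintype.ofFinite X
  let a : X → A := fun x => ⟨φ x, apply_mem_of_mem_locRing A hA h x⟩
  let P : A[X] := ∏ x, (Polynomial.X - C (a x))
  have hP : aeval φ P = 0 := by
    funext x
    have h1 : (aeval φ P) x = aeval (φ x) P :=
      (Polynomial.aeval_algHom_apply (Pi.evalAlgHom A (fun _ : X => Ω) x) φ P).symm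
    rw [h1, map_prod]
    refine Finset.prod_eq_zero (Finset.mem_univ x) ?_
    rw [map_sub, aeval_X, aeval_C, sub_eq_zero]
    rfl
  have hc : IsUnit (P.coeff 0) := by
    rw [Polynomial.coeff_zero_eq_eval_zero, Polynomial.eval_prod]
    refine IsUnit.prod_univ_iff.2 fun x => ?_
    rw [eval_sub, eval_X, eval_C, zero_sub, IsUnit.neg_iff]
    refine IsUnit.of_mul_eq_one (⟨(φ x)⁻¹, hinv x⟩ : A) (Subtype.ext ?_)
    exact mul_inv_cancel₀ (h0 x)
  obtain ⟨ψ, hψ, h1⟩ := exists_inv_of_aeval_eq_zero (locRing R X A) h P hP hc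
  have h2 : (fun x => (φ x)⁻¹) = ψ := by
    funext x
    have h3 := congrFun h1 x
    exact inv_eq_of_mul_eq_one_right h3
  rw [h2]
  exact hψ

/-- Local-global principle. -/
theorem mem_span_of_local [IsLocalRing R] (ψ : X → Ω)
    (h : ∀ A : ValuationSubring Ω, (∀ r : R, algebraMap R Ω r ∈ A) →
      (∀ r : R, ¬ IsUnit r → algebraMap R Ω r ∈ A.nonunits) → ψ ∈ locRing R X A) :
    ψ ∈ Submodule.span (integralClosure R Ω) (equivInt R ℚ Ω X : Set (X → Ω)) := by
  classical
  let N := Submodule.span (integralClosure R Ω) (equivInt R ℚ Ω X : Set (X → Ω))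
  let I : Ideal (integralClosure R Ω) := N.colon {ψ}
  have hI : ∀ s, s ∈ I ↔ s • ψ ∈ N := fun s => Submodule.mem_colon_singleton
  by_contra hcon
  have hne : I ≠ ⊤ := by
    intro htop
    apply hcon
    have h1 : (1 : integralClosure R Ω) ∈ I := by rw [htop]; trivial
    rw [hI, one_smul] at h1
    exact h1
  obtain ⟨m, hm, hIm⟩ := Ideal.exists_le_maximal I hne
  obtain ⟨A, hA1, hA2⟩ := Ideal.image_subset_nonunits_valuationSubring
    (A := (integralClosure R Ω).toSubring) m hm.ne_top
  have hAR : ∀ r : R, algebraMap R Ω r ∈ A := fun r =>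
    hA1 ((integralClosure R Ω).algebraMap_mem r)
  have hcomap : m.comap (algebraMap R (integralClosure R Ω)) = IsLocalRing.maximalIdeal R :=
    IsLocalRing.eq_maximalIdeal (Ideal.isMaximal_comap_of_isIntegral_of_isMaximal m)
  have hAm : ∀ r : R, ¬ IsUnit r → algebraMap R Ω r ∈ A.nonunits := by
    intro r hr
    have h1 : r ∈ m.comap (algebraMap R (integralClosure R Ω)) := by
      rw [hcomap]
      exact hr
    exact hA2 ⟨algebraMap R (integralClosure R Ω) r, h1, rfl⟩
  have hψ := h A hAR hAm
  have key : ∀ φ ∈ Submodule.span A (equivInt R ℚ Ω X : Set (X → Ω)),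
      ∃ s : integralClosure R Ω, (s : Ω) ∉ A.nonunits ∧ s • φ ∈ N := by
    intro φ hφ
    induction hφ using Submodule.span_induction with
    | mem φ hφ => exact ⟨1, by simp [ValuationSubring.mem_nonunits_iff], by
        rw [one_smul]; exact Submodule.subset_span hφ⟩
    | zero => exact ⟨1, by simp [ValuationSubring.mem_nonunits_iff], by
        rw [smul_zero]; exact N.zero_mem⟩
    | add a b _ _ ha hb =>
      obtain ⟨s, hs, hs'⟩ := ha
      obtain ⟨t, ht, ht'⟩ := hb
      refine ⟨s * t, ?_, ?_⟩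
      · rw [ValuationSubring.mem_nonunits_iff] at hs ht ⊢
        have h1 : A.valuation (s : Ω) = 1 :=
          le_antisymm ((A.valuation_le_one_iff _).2 (hA1 s.2)) (not_lt.1 hs)
        have h2 : A.valuation (t : Ω) = 1 :=
          le_antisymm ((A.valuation_le_one_iff _).2 (hA1 t.2)) (not_lt.1 ht)
        rw [MulMemClass.coe_mul, map_mul, h1, h2, one_mul]
        exact lt_irrefl _
      · rw [smul_add]
        refine N.add_mem ?_ ?_
        · rw [mul_comm, mul_smul]
          exact N.smul_mem _ hs'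
        · rw [mul_smul]
          exact N.smul_mem _ ht'
    | smul a φ _ hφ =>
      obtain ⟨s, hs, hs'⟩ := hφ
      obtain ⟨c, b, hb, hbc⟩ := (Frob.mem_iff_exists_center A (a : Ω)).1 a.2
      have hcR : IsIntegral R (c : Ω) := c.2.tower_top
      have hbR : IsIntegral R (b : Ω) := b.2.tower_top
      rw [Frob.mem_center_iff] at hb
      refine ⟨⟨b, hbR⟩ * s, ?_, ?_⟩
      · rw [ValuationSubring.mem_nonunits_iff] at hs hb ⊢
        have h1 : A.valuation (s : Ω) = 1 :=
          le_antisymm ((A.valuation_le_one_iff _).2 (hA1 s.2)) (not_lt.1 hs)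
        have h2 : A.valuation (b : Ω) = 1 :=
          le_antisymm ((A.valuation_le_one_iff _).2 (isIntegral_mem A hAR hbR)) (not_lt.1 hb)
        rw [MulMemClass.coe_mul, map_mul, h1, h2, one_mul]
        exact lt_irrefl _
      · have h3 : ((⟨b, hbR⟩ : integralClosure R Ω) * s) • (a • φ) =
            (⟨c, hcR⟩ : integralClosure R Ω) • (s • φ) := by
          funext x
          change ((b : Ω) * (s : Ω)) * ((a : Ω) * φ x) = (c : Ω) * ((s : Ω) * φ x)
          rw [← hbc]
          ring
        rw [h3]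
        exact N.smul_mem _ hs'
  have hψ' : ψ ∈ Submodule.span A (equivInt R ℚ Ω X : Set (X → Ω)) := by
    rw [← locRing_toSubmodule]
    exact hψ
  obtain ⟨s, hs, hs'⟩ := key ψ hψ'
  exact hs (hA2 ⟨s, hIm ((hI s).2 hs'), rfl⟩)

end Fermat.Agent.HopfOrder
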